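/-
S59lib / R7b / ALD / End32  (helper1)

**The END adapter of R7b**: from the core of R7b (Mazur's principle at `q = 2` for `p = 3`, at a level `2 M'` with
`M'` odd containing an auxiliary prime `r ≡ 2 (mod 3)`) to the instance `p = 3` of `Hub.LowerSmallStmt`
(`Lower32Stmt`): a squarefree minimal divisor-level `M` of `ρ̄_{W,3}` with `2 ∣ M` and `ρ̄_{W,3}` unramified at `2`
does not exist.

* `Lower32CoreStmt` : the statement of the core, in the shape of `S3Proj.llsqTwoThree` (with all the properties of the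
  auxiliary prime available as hypotheses);
* `lower32_of_core` : `2 ∥ M`, unramified at `2`, level `M` ⟹ level `M / 2` (add `r` — helper1's
  `AuxPrime.isResiduallyModularOfLevel_mul` —, apply the core, remove `r` — `AuxPrime.removeAux`; the auxiliary prime
  is helper3's `S3Proj.exists_aux_prime_three`);
* `Lower32Stmt`, `lower32Stmt_of_core`, `lowerSmall_three_of_core` : the contradiction with minimality.
-/
import Mathlib
import Fermat.Agent.S59lib.Iface
import Fermat.Agent.S59lib.AuxPrime.Remove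
import Fermat.Agent.S59lib.S3Proj.Block32

set_option autoImplicit false
set_option linter.unusedSectionVars false
set_option linter.unusedVariables false
set_option linter.style.haveILetI false

noncomputable section

namespace Fermat.Agent.S59lib.R7b.ALD

open Fermat.Agent.S59lib

/-- **the core of R7b** (statement): Mazur's principle at `q = 2` for `p = 3`, at a level `2 (M₀ r)`, `M₀` odd, `r` an
auxiliary prime (`r ≡ 2 mod 3`, `r ∤ 2 M₀`, good for `W`, `3 ∤ a_r(W)`). -/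
def Lower32CoreStmt : Prop :=
  ∀ (W : WeierstrassCurve ℤ), W.Δ ≠ 0 → W.IsSemistableModel → W.ModRepIsIrreducible 3 →
    ∀ M₀ r : ℕ, 0 < M₀ → Odd M₀ → r.Prime → r % 3 = 2 → ¬ r ∣ 2 * M₀ → ¬ (r : ℤ) ∣ W.Δ →
    ¬ (3 : ℤ) ∣ W.apOfModel r → ModPUnramifiedAt W 3 2 →
    W.IsResiduallyModularOfLevel 3 (2 * (M₀ * r)) → W.IsResiduallyModularOfLevel 3 (M₀ * r)

/-- **`(p, q) = (3, 2)`, level form**: `2 ∥ M`, `ρ̄_{W,3}` unramified at `2`, level `M` ⟹ level `M / 2`. -/
theorem lower32_of_core (hcore : Lower32CoreStmt) (W : WeierstrassCurve ℤ) (hΔ : W.Δ ≠ 0)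
    (hss : W.IsSemistableModel) (hirr : W.ModRepIsIrreducible 3) (M : ℕ) (hM : 0 < M) (h2 : 2 ∣ M)
    (h4 : ¬ 2 ^ 2 ∣ M) (hunr : ModPUnramifiedAt W 3 2) (hmod : W.IsResiduallyModularOfLevel 3 M) :
    W.IsResiduallyModularOfLevel 3 (M / 2) := by
  classical
  obtain ⟨M₀, rfl⟩ := h2
  have hM₀pos : 0 < M₀ := by
    rcases Nat.eq_zero_or_pos M₀ with h | h
    · rw [h] at hM
      simp at hM
    · exact h
  have hM₀odd : Odd M₀ := by
    rw [← Nat.not_even_iff_odd]
    rintro ⟨c, hc⟩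
    apply h4
    exact ⟨c, by rw [hc]; ring⟩
  obtain ⟨r, hr, hrS, hr3, hrΔ, hra⟩ := Fermat.Agent.S59lib.S3Proj.exists_aux_prime_three W hΔ hss hirr
    ((2 * M₀).primeFactors ∪ {3})
  rw [Finset.mem_union, not_or, Finset.mem_singleton] at hrS
  have hrM : ¬ r ∣ 2 * M₀ := fun hd => hrS.1 (Nat.mem_primeFactors.2 ⟨hr, hd, hM.ne'⟩)
  -- add `r`
  have h1 : W.IsResiduallyModularOfLevel 3 (2 * M₀ * r) :=
    Fermat.Agent.S59lib.AuxPrime.isResiduallyModularOfLevel_mul hM.ne' hr.ne_zero hmod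
  have e1 : 2 * M₀ * r = 2 * (M₀ * r) := by ring
  rw [e1] at h1
  -- lower `2 → 1`
  have h2 : W.IsResiduallyModularOfLevel 3 (M₀ * r) :=
    hcore W hΔ hss hirr M₀ r hM₀pos hM₀odd hr hr3 hrM hrΔ hra hunr h1
  -- remove `r`
  have hrM₀ : ¬ r ∣ M₀ := fun hd => hrM (Dvd.dvd.mul_left hd 2)
  have hlev : ¬ (((3 : ℕ) : ℤ)) ∣ W.apOfModel r ^ 2 - ((r : ℤ) + 1) ^ 2 := by
    intro hd
    have h3r : (3 : ℤ) ∣ (r : ℤ) + 1 := by
      have h3r' : 3 ∣ r + 1 := by omega
      have : ((3 : ℕ) : ℤ) ∣ ((r + 1 : ℕ) : ℤ) := Int.natCast_dvd_natCast.2 h3r'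
      push_cast at this
      exact this
    have h3a2 : (3 : ℤ) ∣ W.apOfModel r ^ 2 := by
      have := dvd_add hd (Dvd.dvd.mul_left h3r ((r : ℤ) + 1))
      have e : W.apOfModel r ^ 2 - ((r : ℤ) + 1) ^ 2 + ((r : ℤ) + 1) * ((r : ℤ) + 1) =
          W.apOfModel r ^ 2 := by ring
      rw [e] at this
      exact_mod_cast this
    exact hra (Int.Prime.dvd_pow' Nat.prime_three h3a2)
  have h3 := Fermat.Agent.S59lib.AuxPrime.removeAux 3 Nat.prime_three W hΔ M₀ r hM₀pos.ne' hr hrM₀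
    (fun h => by rw [h] at hr3; omega) hrΔ hlev h2
  rw [Nat.mul_div_cancel_left _ (by norm_num : 0 < 2)]
  exact h3

/-- **LOWERONE at `(p, q) = (3, 2)`** (statement; the instance `p = 3`, `q = 2` of `Hub.LowerSmallStmt`). -/
def Lower32Stmt : Prop :=
  ∀ (W : WeierstrassCurve ℤ), W.Δ ≠ 0 → W.IsSemistableModel → W.ModRepIsIrreducible 3 →
    ∀ M : ℕ, 0 < M → Squarefree M → 2 ∣ M → IsMinimalDivLevel W 3 M → ModPUnramifiedAt W 3 2 → False

/-- the END adapter: the core of R7b gives `Lower32Stmt` -/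
theorem lower32Stmt_of_core (hcore : Lower32CoreStmt) : Lower32Stmt := by
  intro W hΔ hss hirr M hM hsq h2 hmin hunr
  have h4 : ¬ 2 ^ 2 ∣ M := by
    intro h
    rw [sq] at h
    exact absurd (Nat.isUnit_iff.mp (hsq 2 h)) (by norm_num)
  have h1 := lower32_of_core hcore W hΔ hss hirr M hM h2 h4 hunr hmin.1
  exact hmin.2 (M / 2) (Nat.div_dvd_of_dvd h2) (Nat.div_lt_self hM (by norm_num)).ne h1

/-- the instance `p = 3` of `Hub.LowerSmallStmt` (all `q < 5`, `q ≠ 3`, i.e. `q = 2`), verbatim binders -/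
theorem lowerSmall_three_of_core (hcore : Lower32CoreStmt) (W : WeierstrassCurve ℤ) (hΔ : W.Δ ≠ 0)
    (hss : W.IsSemistableModel) (hirr : W.ModRepIsIrreducible 3) (M q : ℕ) (hM : 0 < M) (hsq : Squarefree M)
    (hq : q.Prime) (hq5 : q < 5) (hq3 : q ≠ 3) (hqM : q ∣ M) (hmin : IsMinimalDivLevel W 3 M)
    (hssp : 3 ∣ M → W.IsGoodPrimeFor 3 → ModPInertiaIrreducible W 3) (hno : 3 ∣ M → NoLevelPrimeTo W 3)
    (hunr : ModPUnramifiedAt W 3 q) : False := by
  have hq2 : q = 2 := by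
    have h2 := hq.two_le
    interval_cases q
    · rfl
    · exact absurd rfl hq3
    · exact absurd hq (by norm_num)
  subst hq2
  exact lower32Stmt_of_core hcore W hΔ hss hirr M hM hsq hqM hmin hunr

/-- `Lower32Stmt` with the binders of helper7's `Hub.Lower32Stmt` (#h7-H38), verbatim -/
theorem lower32_hub_of_core (hcore : Lower32CoreStmt) :
    ∀ (W : WeierstrassCurve ℤ), W.Δ ≠ 0 → W.IsSemistableModel → W.ModRepIsIrreducible 3 →
      ∀ M : ℕ, 0 < M → Squarefree M → 2 ∣ M → IsMinimalDivLevel W 3 M →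
      (3 ∣ M → W.IsGoodPrimeFor 3 → ModPInertiaIrreducible W 3) → (3 ∣ M → NoLevelPrimeTo W 3) →
      ModPUnramifiedAt W 3 2 → False :=
  fun W hΔ hss hirr M hM hsq h2 hmin _ _ hunr =>
    lower32Stmt_of_core hcore W hΔ hss hirr M hM hsq h2 hmin hunr

end Fermat.Agent.S59lib.R7b.ALD
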