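/-
S59lib / R7b / ALD / EigAbs  (helper1)

Abstract linear algebra: for an arbitrary family `T i` of linear operators on a vector space `E` (not assumed to
commute), simultaneous eigenvectors with distinct systems of eigenvalues are independent (`eq_zero_of_sum_eig`), and
if `x` is a simultaneous `ψ`-eigenvector lying in a finite sum of subspaces `W k`, each spanned by simultaneous
eigenvectors, then `x` lies in the sum of the `ψ`-eigenspaces of the `W k` (`mem_iSup_inf_eigSub`).
-/
import Mathlib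

set_option autoImplicit false
set_option linter.unusedSectionVars false

noncomputable section

namespace Fermat.Agent.S59lib.R7b.ALD

variable {K ι E : Type*} [Field K] [AddCommGroup E] [Module K E] (T : ι → E →ₗ[K] E)

/-- the simultaneous eigenspace of the family `T` for the system `χ` -/
def eigSub (χ : ι → K) : Submodule K E where
  carrier := {w | ∀ i, T i w = χ i • w}
  zero_mem' := fun i => by rw [map_zero, smul_zero]
  add_mem' := by
    intro a b ha hb i
    rw [map_add, ha i, hb i, smul_add]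
  smul_mem' := by
    intro c a ha i
    rw [map_smul, ha i, smul_comm]

theorem mem_eigSub {χ : ι → K} {w : E} : w ∈ eigSub T χ ↔ ∀ i, T i w = χ i • w := Iff.rfl

/-- **independence of simultaneous eigenvectors** -/
theorem eq_zero_of_sum_eig (ψ : ι → K) : ∀ (X : Finset (ι → K)), ψ ∉ X →
    ∀ (x : (ι → K) → E), (∀ χ ∈ X, x χ ∈ eigSub T χ) → ∀ y ∈ eigSub T ψ,
      y = ∑ χ ∈ X, x χ → y = 0 := by
  classical
  intro X
  induction X using Finset.induction_on with
  | empty =>
    intro _ x _ y _ hy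
    rw [hy, Finset.sum_empty]
  | insert χ₀ X hχ₀ ih =>
    intro hψ x hx y hy hsum
    have hψ0 : ψ ≠ χ₀ := fun h => hψ (h ▸ Finset.mem_insert_self _ _)
    have hψX : ψ ∉ X := fun h => hψ (Finset.mem_insert_of_mem h)
    obtain ⟨i, hi⟩ := Function.ne_iff.mp hψ0
    -- apply `T i - χ₀ i`
    have h1 : (ψ i - χ₀ i) • y = ∑ χ ∈ X, (χ i - χ₀ i) • x χ := by
      have e1 : T i y - χ₀ i • y = (ψ i - χ₀ i) • y := by rw [hy i, sub_smul]
      rw [← e1, hsum, Finset.sum_insert hχ₀, map_add, map_sum, smul_add, Finset.smul_sum,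
        hx χ₀ (Finset.mem_insert_self _ _) i]
      have e2 : ∀ χ ∈ X, T i (x χ) = χ i • x χ := fun χ hχ => hx χ (Finset.mem_insert_of_mem hχ) i
      rw [Finset.sum_congr rfl e2]
      simp only [sub_smul, Finset.sum_sub_distrib]
      abel
    have h2 := ih hψX (fun χ => (χ i - χ₀ i) • x χ)
      (fun χ hχ => Submodule.smul_mem _ _ (hx χ (Finset.mem_insert_of_mem hχ)))
      ((ψ i - χ₀ i) • y) (Submodule.smul_mem _ _ hy) h1
    exact (smul_eq_zero.mp h2).resolve_left (sub_ne_zero.mpr hi)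

/-- the span of the simultaneous eigenvectors with system `≠ ψ` lying in one of the `W k` -/
def otherSpan {κ : Type*} (W : κ → Submodule K E) (s : Finset κ) (ψ : ι → K) : Submodule K E :=
  Submodule.span K {w | ∃ k ∈ s, w ∈ W k ∧ ∃ χ : ι → K, χ ≠ ψ ∧ w ∈ eigSub T χ}

theorem exists_sum_of_mem_otherSpan {κ : Type*} (W : κ → Submodule K E) (s : Finset κ) (ψ : ι → K)
    {y : E} (hy : y ∈ otherSpan T W s ψ) :
    ∃ (X : Finset (ι → K)) (x : (ι → K) → E), ψ ∉ X ∧ (∀ χ, x χ ∈ eigSub T χ) ∧
      (∀ χ, χ ∉ X → x χ = 0) ∧ y = ∑ χ ∈ X, x χ := by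
  classical
  induction hy using Submodule.span_induction with
  | mem w hw =>
    obtain ⟨k, -, -, χ, hχψ, hχ⟩ := hw
    refine ⟨{χ}, fun χ' => if χ' = χ then w else 0, ?_, ?_, ?_, ?_⟩
    · rw [Finset.mem_singleton]
      exact fun h => hχψ h.symm
    · intro χ'
      show (if χ' = χ then w else 0) ∈ eigSub T χ'
      by_cases h : χ' = χ
      · rw [if_pos h, h]; exact hχ
      · rw [if_neg h]; exact Submodule.zero_mem _
    · intro χ' h
      rw [Finset.mem_singleton] at h
      show (if χ' = χ then w else 0) = 0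
      rw [if_neg h]
    · rw [Finset.sum_singleton]
      show w = if χ = χ then w else 0
      rw [if_pos rfl]
  | zero =>
    exact ⟨∅, fun _ => 0, Finset.notMem_empty _, fun _ => Submodule.zero_mem _, fun _ _ => rfl,
      by rw [Finset.sum_empty]⟩
  | add y y' _ _ ih ih' =>
    obtain ⟨X, x, hX, hx, hx0, rfl⟩ := ih
    obtain ⟨X', x', hX', hx', hx0', rfl⟩ := ih'
    refine ⟨X ∪ X', fun χ => x χ + x' χ, ?_, fun χ => Submodule.add_mem _ (hx χ) (hx' χ), ?_, ?_⟩
    · rw [Finset.mem_union]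
      exact fun h => h.elim hX hX'
    · intro χ h
      rw [Finset.mem_union, not_or] at h
      show x χ + x' χ = 0
      rw [hx0 χ h.1, hx0' χ h.2, add_zero]
    · rw [Finset.sum_add_distrib]
      congr 1
      · exact (Finset.sum_subset Finset.subset_union_left fun χ _ h => hx0 χ h)
      · exact (Finset.sum_subset Finset.subset_union_right fun χ _ h => hx0' χ h)
  | smul c y _ ih =>
    obtain ⟨X, x, hX, hx, hx0, rfl⟩ := ih
    refine ⟨X, fun χ => c • x χ, hX, fun χ => Submodule.smul_mem _ _ (hx χ), ?_, ?_⟩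
    · intro χ h
      show c • x χ = 0
      rw [hx0 χ h, smul_zero]
    · rw [Finset.smul_sum]

/-- **projection onto the `ψ`-part**: a `ψ`-eigenvector in a finite sum of subspaces spanned by simultaneous
eigenvectors lies in the sum of their `ψ`-eigenspaces -/
theorem mem_iSup_inf_eigSub {κ : Type*} (W : κ → Submodule K E) (s : Finset κ) (ψ : ι → K)
    (hW : ∀ k ∈ s, W k ≤ Submodule.span K {w | w ∈ W k ∧ ∃ χ : ι → K, w ∈ eigSub T χ})
    {x : E} (hx : x ∈ ⨆ k ∈ s, W k) (hxψ : x ∈ eigSub T ψ) :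
    x ∈ ⨆ k ∈ s, (W k ⊓ eigSub T ψ) := by
  classical
  set N : Submodule K E := ⨆ k ∈ s, (W k ⊓ eigSub T ψ) with hN
  have hNψ : N ≤ eigSub T ψ := iSup₂_le fun k _ => inf_le_right
  -- every `W k` lies in `N ⊔ otherSpan`
  have h1 : (⨆ k ∈ s, W k) ≤ N ⊔ otherSpan T W s ψ := by
    refine iSup₂_le fun k hk => ?_
    refine le_trans (hW k hk) (Submodule.span_le.mpr ?_)
    rintro w ⟨hwW, χ, hχ⟩
    by_cases h : χ = ψ
    · refine Submodule.mem_sup_left ?_
      exact Submodule.mem_iSup_of_mem k (Submodule.mem_iSup_of_mem hk ⟨hwW, h ▸ hχ⟩)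
    · exact Submodule.mem_sup_right (Submodule.subset_span ⟨k, hk, hwW, χ, h, hχ⟩)
  obtain ⟨n, hn, n', hn', rfl⟩ := Submodule.mem_sup.mp (h1 hx)
  -- `n'` is a `ψ`-eigenvector in the span of the others, hence zero
  have hn'ψ : n' ∈ eigSub T ψ := by
    have := Submodule.sub_mem _ hxψ (hNψ hn)
    rwa [add_sub_cancel_left] at this
  obtain ⟨X, x', hX, hx', -, hsum⟩ := exists_sum_of_mem_otherSpan T W s ψ hn'
  have h0 := eq_zero_of_sum_eig T ψ X hX x' (fun χ _ => hx' χ) n' hn'ψ hsum
  rw [h0, add_zero]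
  exact hn

end Fermat.Agent.S59lib.R7b.ALD
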