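/-
S59lib / R7b / ALD / SlashOp  (helper1)

A general constructor for operators on cusp forms given by one slash: for `g ∈ GL₂(ℝ)⁺` with
`g Γ' ⊆ Γ g` the map `f ↦ f ∣[k] g` sends `S_k(Γ)` to `S_k(Γ')` (`slashOp`).  Special cases:

* `incl` : the inclusion `S_k(Γ₀(L)) → S_k(Γ₀(L'))`, `L ∣ L'` (`g = 1`);
* `vOp L p` : `V_p : S_k(Γ₀(L)) → S_k(Γ₀(L p))`, `f ↦ f ∣[k] diag(p, 1)`, with the `q`-expansion
  `a_n(V_p f) = p^(k-1) a_{n/p}(f)` (`qCoeff_vOp`).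
-/
import Mathlib
import Fermat.Agent.Helper8.QCoeff
import Fermat.Agent.S48lib.DS.ProdForm

set_option autoImplicit false
set_option linter.unusedSectionVars false
set_option linter.style.haveILetI false

noncomputable section

namespace Fermat.Agent.S59lib.R7b.ALD

open UpperHalfPlane ModularFormClass CongruenceSubgroup ModularForm Matrix Matrix.SpecialLinearGroup
open Fermat.Agent.Helper8
open scoped MatrixGroups ModularForm

/-! ### the general one-slash operator -/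

section general

variable {Γ Γ' : Subgroup (GL (Fin 2) ℝ)} {k : ℤ}

open ConjAct Pointwise in
theorem le_conj_of_forall_exists (g : GL (Fin 2) ℝ)
    (h : ∀ γ ∈ Γ', ∃ γ' ∈ Γ, g * γ = γ' * g) : Γ' ≤ toConjAct g⁻¹ • Γ := by
  intro γ hγ
  obtain ⟨γ', hγ', h'⟩ := h γ hγ
  rw [Subgroup.mem_pointwise_smul_iff_inv_smul_mem, map_inv, inv_inv, toConjAct_smul, h']
  simpa using hγ'

/-- `f ↦ f ∣[k] g` from `S_k(Γ)` to `S_k(Γ')`, for `g` of positive determinant with `g Γ' ⊆ Γ g`. -/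
def slashOp [Γ.HasDetOne] [Γ'.HasDetOne] (k : ℤ) (g : GL (Fin 2) ℝ) (hdet : 0 < (g.det : ℝ))
    (h : ∀ γ ∈ Γ', ∃ γ' ∈ Γ, g * γ = γ' * g) : CuspForm Γ k →ₗ[ℂ] CuspForm Γ' k where
  toFun f :=
    { toFun := ⇑f ∣[k] g
      slash_action_eq' := fun γ hγ => by
        obtain ⟨γ', hγ', h'⟩ := h γ hγ
        rw [← SlashAction.slash_mul, h', SlashAction.slash_mul,
          SlashInvariantFormClass.slash_action_eq f γ' hγ']
      holo' := (CuspForm.translate f g).holo'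
      zero_at_cusps' := fun hc =>
        (CuspForm.translate f g).zero_at_cusps' (hc.mono (le_conj_of_forall_exists g h)) }
  map_add' f f' := DFunLike.coe_injective <| by
    show (⇑(f + f')) ∣[k] g = ⇑f ∣[k] g + ⇑f' ∣[k] g
    rw [FunLike.coe_add, SlashAction.add_slash]
  map_smul' c f := DFunLike.coe_injective <| by
    show (⇑(c • f)) ∣[k] g = c • (⇑f ∣[k] g)
    have hσ : UpperHalfPlane.σ g = .refl ℝ ℂ := by
      rw [UpperHalfPlane.σ, if_pos hdet]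
    rw [FunLike.coe_smul, ModularForm.smul_slash, hσ, ContinuousAlgEquiv.refl_apply]

@[simp] theorem coe_slashOp [Γ.HasDetOne] [Γ'.HasDetOne] (k : ℤ) (g : GL (Fin 2) ℝ)
    (hdet : 0 < (g.det : ℝ))
    (h : ∀ γ ∈ Γ', ∃ γ' ∈ Γ, g * γ = γ' * g) (f : CuspForm Γ k) :
    ⇑(slashOp k g hdet h f) = ⇑f ∣[k] g := rfl

end general

/-! ### membership in `Γ₀` -/

theorem gamma0_mem_iff (N : ℕ) (g : SL(2, ℤ)) : g ∈ Gamma0 N ↔ (N : ℤ) ∣ g 1 0 := by
  rw [Gamma0_mem, ZMod.intCast_zmod_eq_zero_iff_dvd]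

theorem gamma0_le_of_dvd {L L' : ℕ} (h : L ∣ L') : Gamma0 L' ≤ Gamma0 L := by
  intro g hg
  rw [gamma0_mem_iff] at hg ⊢
  exact dvd_trans (Int.natCast_dvd_natCast.mpr h) hg

/-! ### the inclusion -/

/-- the inclusion `S_k(Γ₀(L)) ⊆ S_k(Γ₀(L'))` for `L ∣ L'` -/
def incl {L L' : ℕ} (h : L ∣ L') (k : ℤ) :
    CuspForm (Gamma0 L) k →ₗ[ℂ] CuspForm (Gamma0 L') k where
  toFun f :=
    { toFun := f
      slash_action_eq' := fun γ hγ =>
        f.slash_action_eq' γ (Subgroup.map_mono (gamma0_le_of_dvd h) hγ)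
      holo' := f.holo'
      zero_at_cusps' := fun hc =>
        f.zero_at_cusps' (hc.mono (Subgroup.map_mono (gamma0_le_of_dvd h))) }
  map_add' _ _ := DFunLike.coe_injective rfl
  map_smul' _ _ := DFunLike.coe_injective rfl

@[simp] theorem coe_incl {L L' : ℕ} (h : L ∣ L') (k : ℤ) (f : CuspForm (Gamma0 L) k) :
    ⇑(incl h k f) = ⇑f := rfl

theorem qCoeff_incl {L L' : ℕ} (h : L ∣ L') (k : ℤ) (f : CuspForm (Gamma0 L) k) (n : ℕ) :
    qCoeff ⇑(incl h k f) n = qCoeff ⇑f n := rfl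

/-! ### the operator `V_p` -/

section V

variable (L p : ℕ) [NeZero p]

theorem heckeDiag_mul_exists {γ : GL (Fin 2) ℝ}
    (hγ : γ ∈ ((Gamma0 (L * p) : Subgroup SL(2, ℤ)) : Subgroup (GL (Fin 2) ℝ))) :
    ∃ γ' ∈ ((Gamma0 L : Subgroup SL(2, ℤ)) : Subgroup (GL (Fin 2) ℝ)),
      heckeDiagMatrix p * γ = γ' * heckeDiagMatrix p := by
  obtain ⟨g, hg, rfl⟩ := Subgroup.mem_map.mp hγ
  have hg' : g ∈ Gamma0 (p * L) := by rwa [mul_comm] at hg
  refine ⟨_, Subgroup.mem_map.mpr ⟨_, Fermat.Agent.S48lib.DS.conjDiag_mem_Gamma0 (NeZero.ne p) hg', rfl⟩, ?_⟩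
  exact Fermat.Agent.S48lib.DS.heckeDiag_mul_mapGL p (NeZero.ne p) g _

/-- `V_p : S_k(Γ₀(L)) → S_k(Γ₀(L p))`, `f ↦ f ∣[k] diag(p, 1)` (so `(V_p f)(τ) = p^(k-1) f(p τ)`). -/
def vOp (k : ℤ) : CuspForm (Gamma0 L) k →ₗ[ℂ] CuspForm (Gamma0 (L * p)) k :=
  slashOp k (heckeDiagMatrix p) (det_heckeDiagMatrix_pos p) (fun _ hγ => heckeDiag_mul_exists L p hγ)

@[simp] theorem coe_vOp (k : ℤ) (f : CuspForm (Gamma0 L) k) :
    ⇑(vOp L p k f) = ⇑f ∣[k] heckeDiagMatrix p := rfl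

instance instNeZeroMulLevel [NeZero L] : NeZero (L * p) :=
  ⟨Nat.mul_ne_zero (NeZero.ne L) (NeZero.ne p)⟩

/-- the `q`-expansion of `V_p f`: `a_n(V_p f) = p^(k-1) a_{n/p}(f)` -/
theorem qCoeff_vOp [NeZero L] (k : ℤ) (f : CuspForm (Gamma0 L) k) (n : ℕ) :
    qCoeff ⇑(vOp L p k f) n = if p ∣ n then (p : ℂ) ^ (k - 1) * qCoeff ⇑f (n / p) else 0 := by
  have hp : p ≠ 0 := NeZero.ne p
  -- `T_p f = U_p f + V_p f` as forms of level `L p`
  set A : CuspForm (Gamma0 (L * p)) k :=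
    CuspForm.heckeULin k (dvd_mul_left p L) (incl (dvd_mul_right L p) k f) with hA
  have hsum : (⇑(A + vOp L p k f) : ℍ → ℂ) = heckeT k p ⇑f := by
    rw [FunLike.coe_add, hA, CuspForm.coe_heckeULin_apply, coe_incl, coe_vOp,
      heckeT_eq_heckeU_add]
  have h1 : qCoeff ⇑(A + vOp L p k f) n = coeffHeckeT k p (qCoeff ⇑f) n := by
    rw [hsum]
    exact ModularFormClass.qCoeff_heckeT f (one_mem_strictPeriods L) hp n
  have h2 : qCoeff ⇑A n = coeffHeckeU p (qCoeff ⇑f) n := by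
    rw [hA, CuspForm.coe_heckeULin_apply, coe_incl]
    exact ModularFormClass.qCoeff_heckeU f (one_mem_strictPeriods L) hp n
  rw [qCoeff_add, h2, coeffHeckeT_eq_coeffHeckeU_add] at h1
  exact add_left_cancel h1

end V

end Fermat.Agent.S59lib.R7b.ALD
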