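/-
S59lib / R7b / ALD / Base  (helper1)

**AL for a finite set of primes not dividing the level** (`eq_zero_of_qCoeff_coprime_finset`):
`D` a finite set of primes, none dividing `L`; a cusp form `f ∈ S₂(Γ₀(L))` with `a_n(f) = 0` for all `n` prime to
`D` vanishes.  (`AL₂` = `eq_zero_of_qCoeff_coprime_two` is the case `D = {p, r}`.)

Proof: induction on `|D|`, all levels at once.  For `p ∈ D`, the `p`-depletion `f - p⁻¹ V_p U_p f` has level `L p²`
and vanishes off `D \ {p}`, hence is zero; so `f` is supported on the multiples of `p` and vanishes by helper4's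
`AL(p)` (`SMO.eq_zero_of_qCoeff_coprime`).
-/
import Mathlib
import Fermat.Agent.S59lib.SMO.ALp
import Fermat.Agent.S59lib.R7b.ALD.SlashOp

set_option autoImplicit false
set_option linter.unusedSectionVars false
set_option linter.style.haveILetI false

noncomputable section

namespace Fermat.Agent.S59lib.R7b.ALD

open UpperHalfPlane ModularFormClass CongruenceSubgroup ModularForm Matrix Matrix.SpecialLinearGroup
open Fermat.Agent.Helper8
open scoped MatrixGroups ModularForm

/-- the `p`-depletion `f - p⁻¹ V_p U_p f` of a form of level `L`, at level `L p²` -/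
def deplete (L p : ℕ) [NeZero L] [NeZero p] (f : CuspForm (Gamma0 L) 2) :
    CuspForm (Gamma0 (L * p * p)) 2 :=
  incl (Dvd.intro (p * p) (mul_assoc L p p).symm) 2 f -
    (p : ℂ)⁻¹ • vOp (L * p) p 2
      (CuspForm.heckeULin 2 (dvd_mul_left p L) (incl (dvd_mul_right L p) 2 f))

theorem qCoeff_deplete (L p : ℕ) [NeZero L] [NeZero p] (f : CuspForm (Gamma0 L) 2) (n : ℕ) :
    qCoeff ⇑(deplete L p f) n = if p ∣ n then 0 else qCoeff ⇑f n := by
  have hp : p ≠ 0 := NeZero.ne p
  have hp' : (p : ℂ) ≠ 0 := by exact_mod_cast hp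
  rw [deplete, qCoeff_sub, qCoeff_smul, qCoeff_vOp, qCoeff_incl]
  by_cases h : p ∣ n
  · rw [if_pos h, if_pos h]
    have h1 : qCoeff ⇑(CuspForm.heckeULin 2 (dvd_mul_left p L) (incl (dvd_mul_right L p) 2 f)) (n / p) =
        qCoeff ⇑f n := by
      rw [CuspForm.coe_heckeULin_apply, coe_incl,
        ModularFormClass.qCoeff_heckeU f (one_mem_strictPeriods L) hp (n / p), coeffHeckeU_apply,
        Nat.div_mul_cancel h]
    rw [h1]
    have h3 : ((p : ℂ)) ^ ((2 : ℤ) - 1) = (p : ℂ) := by norm_num
    rw [h3]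
    field_simp
    ring
  · rw [if_neg h, if_neg h, mul_zero, sub_zero]

/-- **AL for a finite set of primes prime to the level.** -/
theorem eq_zero_of_qCoeff_coprime_finset (D : Finset ℕ) :
    ∀ (L : ℕ) [NeZero L], (∀ q ∈ D, q.Prime ∧ ¬ q ∣ L) → ∀ f : CuspForm (Gamma0 L) 2,
      (∀ n, (∀ q ∈ D, ¬ q ∣ n) → qCoeff ⇑f n = 0) → f = 0 := by
  classical
  induction D using Finset.induction_on with
  | empty =>
    intro L _ _ f hW
    exact eq_zero_of_qCoeff_eq_zero f fun n => hW n (fun q hq => absurd hq (Finset.notMem_empty q))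
  | insert p D' hpD' ih =>
    intro L _ hD f hW
    obtain ⟨hp, hpL⟩ := hD p (Finset.mem_insert_self p D')
    haveI : NeZero p := ⟨hp.ne_zero⟩
    -- the depletion vanishes
    have hg : deplete L p f = 0 := by
      refine ih (L * p * p) ?_ (deplete L p f) ?_
      · intro q hq
        obtain ⟨hq1, hq2⟩ := hD q (Finset.mem_insert_of_mem hq)
        refine ⟨hq1, fun hdvd => ?_⟩
        have hqp : q ≠ p := fun h => hpD' (h ▸ hq)
        have hqp' : ¬ q ∣ p := fun h => hqp ((Nat.prime_dvd_prime_iff_eq hq1 hp).mp h)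
        rcases (Nat.Prime.dvd_mul hq1).mp hdvd with h | h
        · rcases (Nat.Prime.dvd_mul hq1).mp h with h | h
          · exact hq2 h
          · exact hqp' h
        · exact hqp' h
      · intro n hn
        rw [qCoeff_deplete]
        by_cases h : p ∣ n
        · rw [if_pos h]
        · rw [if_neg h]
          apply hW
          intro q hq
          rcases Finset.mem_insert.mp hq with rfl | hq
          · exact h
          · exact hn q hq
    -- so `f` is supported on the multiples of `p`
    apply Fermat.Agent.S59lib.SMO.eq_zero_of_qCoeff_coprime hp hpL f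
    intro n hn
    have h1 := qCoeff_deplete L p f n
    rw [hg, qCoeff_zero', if_neg hn] at h1
    exact h1.symm

/-- **AL₂**: the two-prime case in the consumer's shape. -/
theorem eq_zero_of_qCoeff_coprime_two {M : ℕ} [NeZero M] {p r : ℕ} (hp : p.Prime) (hr : r.Prime)
    (hpM : ¬ p ∣ M) (hrM : ¬ r ∣ M) (f : CuspForm (Gamma0 M) 2)
    (hW : ∀ n, ¬ p ∣ n → ¬ r ∣ n → qCoeff ⇑f n = 0) : f = 0 := by
  classical
  refine eq_zero_of_qCoeff_coprime_finset {p, r} M ?_ f ?_
  · intro q hq
    rcases Finset.mem_insert.mp hq with rfl | hq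
    · exact ⟨hp, hpM⟩
    · rw [Finset.mem_singleton] at hq
      subst hq
      exact ⟨hr, hrM⟩
  · intro n hn
    exact hW n (hn p (Finset.mem_insert_self _ _))
      (hn r (Finset.mem_insert_of_mem (Finset.mem_singleton_self _)))

end Fermat.Agent.S59lib.R7b.ALD
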