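/-
S59lib / R7b / ALD / Trace  (helper1)

Explicit formulas for the trace `trOp N q : S_k(Γ₀(N q)) → S_k(Γ₀(N))` (main `S41lib/NEW/Trace`) for an arbitrary
system of representatives (`coe_trOp_eq_sum`), and the two systems used in the weak Atkin–Lehner theorem:

* `q ∣ N`, `t` prime to `q`: the lower triangular matrices `(1 0; N t j 1)`, `0 ≤ j < q` (`coe_trOp_eq_lt`);
* `q ∤ N` (`q x w - N y z = 1`): `(1 0; N j 1)`, `0 ≤ j < q`, and `(x y; N z q w)` (`coe_trOp_eq_lt_add`).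
-/
import Mathlib
import Fermat.Agent.S41lib.NEW.TraceFormula
import Fermat.Agent.S41lib.HC.LevelAL

set_option autoImplicit false
set_option linter.unusedSectionVars false
set_option linter.style.haveILetI false

noncomputable section

namespace Fermat.Agent.S59lib.R7b.ALD

open UpperHalfPlane CongruenceSubgroup ModularForm Matrix Matrix.SpecialLinearGroup
open Fermat.Agent.S41lib.NEW Fermat.Agent.S31lib.PET
open scoped MatrixGroups ModularForm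

/-! ### the trace for a general system of representatives -/

section general

variable {N q : ℕ} [NeZero N] [NeZero q] {ι : Type*} [Fintype ι]

/-- the trace is the sum over any system of representatives of `Γ₀(N q) \ Γ₀(N)` -/
theorem coe_trOp_eq_sum (r : ι → SL(2, ℤ)) (hr : ∀ i, r i ∈ Gamma0 N)
    (hinj : ∀ i j, r i * (r j)⁻¹ ∈ Gamma0 (N * q) → i = j)
    (hsurj : ∀ g ∈ Gamma0 N, ∃ i, r i * g ∈ Gamma0 (N * q)) {k : ℤ}
    (f : CuspForm (Gamma0 (N * q)) k) :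
    ⇑(trOp N q k f) = ∑ i, ⇑f ∣[k] r i := by
  classical
  rw [coe_trOp, CuspForm.coe_trace]
  let _ : Fintype (↥((Gamma0 N : Subgroup SL(2, ℤ)) : Subgroup (GL (Fin 2) ℝ)) ⧸
      ((Gamma0 (N * q) : Subgroup SL(2, ℤ)) : Subgroup (GL (Fin 2) ℝ)).subgroupOf
        ((Gamma0 N : Subgroup SL(2, ℤ)) : Subgroup (GL (Fin 2) ℝ))) := Fintype.ofFinite _
  let cm : ι → (↥((Gamma0 N : Subgroup SL(2, ℤ)) : Subgroup (GL (Fin 2) ℝ)) ⧸
      ((Gamma0 (N * q) : Subgroup SL(2, ℤ)) : Subgroup (GL (Fin 2) ℝ)).subgroupOf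
        ((Gamma0 N : Subgroup SL(2, ℤ)) : Subgroup (GL (Fin 2) ℝ))) :=
    fun i => QuotientGroup.mk (g0Elt (⟨r i, hr i⟩ : ↥(Gamma0 N))⁻¹)
  have hcm : Function.Bijective cm := by
    constructor
    · intro i j hij
      apply hinj
      have h1 := (mk_g0Elt_eq_iff (q := q) _ _).mp hij
      simpa using h1
    · intro c
      obtain ⟨r', rfl⟩ := QuotientGroup.mk_surjective c
      obtain ⟨g, rfl⟩ := exists_g0Elt r'
      obtain ⟨i, hi⟩ := hsurj (g : SL(2, ℤ)) g.2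
      refine ⟨i, ?_⟩
      show QuotientGroup.mk (g0Elt (⟨r i, hr i⟩ : ↥(Gamma0 N))⁻¹) = _
      rw [mk_g0Elt_eq_iff]
      simpa using hi
  refine (Function.Bijective.sum_comp hcm _).symm.trans ?_
  refine Finset.sum_congr rfl fun i _ => ?_
  change SlashInvariantForm.quotientFunc f ⟦g0Elt _⟧ = _
  rw [SlashInvariantForm.quotientFunc_mk]
  simp [g0Elt]
  rfl

end general

/-! ### lower triangular matrices -/

/-- the lower unipotent matrices -/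
def lt (c : ℤ) : SL(2, ℤ) := ⟨!![1, 0; c, 1], by rw [Matrix.det_fin_two_of]; ring⟩

theorem lt_coe (c : ℤ) : ((lt c : SL(2, ℤ)) : Matrix (Fin 2) (Fin 2) ℤ) = !![1, 0; c, 1] := rfl

theorem lt_mem_iff (N : ℕ) (c : ℤ) : lt c ∈ Gamma0 N ↔ (N : ℤ) ∣ c := by
  rw [Gamma0_mem, ZMod.intCast_zmod_eq_zero_iff_dvd]
  rfl

theorem lt_mul (c c' : ℤ) : lt c * lt c' = lt (c + c') := by
  ext i j
  rw [Matrix.SpecialLinearGroup.coe_mul, lt_coe, lt_coe, lt_coe, Matrix.mul_apply, Fin.sum_univ_two]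
  fin_cases i <;> fin_cases j <;> simp

theorem lt_zero : lt 0 = 1 := by
  ext i j
  rw [lt_coe]
  fin_cases i <;> fin_cases j <;> simp

theorem lt_inv (c : ℤ) : (lt c)⁻¹ = lt (-c) := by
  rw [inv_eq_iff_eq_inv, eq_comm, inv_eq_iff_mul_eq_one, lt_mul, neg_add_cancel, lt_zero]

theorem lt_mul_apply_one_zero (c : ℤ) (g : SL(2, ℤ)) : (lt c * g) 1 0 = c * g 0 0 + g 1 0 := by
  rw [Matrix.SpecialLinearGroup.coe_mul, lt_coe, Matrix.mul_apply, Fin.sum_univ_two]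
  simp

theorem gamma0_dvd {N : ℕ} {g : SL(2, ℤ)} (hg : g ∈ Gamma0 N) : (N : ℤ) ∣ g 1 0 := by
  rwa [Gamma0_mem, ZMod.intCast_zmod_eq_zero_iff_dvd] at hg

theorem det_eq_one (g : SL(2, ℤ)) : g 0 0 * g 1 1 - g 0 1 * g 1 0 = 1 := by
  have := g.det_coe
  rwa [Matrix.det_fin_two] at this

/-- solving `q ∣ u j + c` for `j < q` when `q ∤ u` -/
theorem exists_lt_dvd {q : ℕ} (hq : q.Prime) {u : ℤ} (hu : ¬ (q : ℤ) ∣ u) (c : ℤ) :
    ∃ j : ℕ, j < q ∧ (q : ℤ) ∣ u * (j : ℤ) + c := by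
  haveI : Fact q.Prime := ⟨hq⟩
  have hne : (u : ZMod q) ≠ 0 := by
    intro h0
    exact hu ((ZMod.intCast_zmod_eq_zero_iff_dvd u q).mp h0)
  set jz : ZMod q := -(c : ZMod q) * (u : ZMod q)⁻¹ with hjz
  refine ⟨jz.val, ZMod.val_lt jz, ?_⟩
  rw [← ZMod.intCast_zmod_eq_zero_iff_dvd]
  push_cast
  rw [ZMod.natCast_zmod_val, hjz, mul_comm (-_), ← mul_assoc, mul_inv_cancel₀ hne, one_mul,
    neg_add_cancel]

theorem eq_of_dvd_sub_of_lt {q i j : ℕ} (hi : i < q) (hj : j < q)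
    (h : (q : ℤ) ∣ (i : ℤ) - (j : ℤ)) : i = j := by
  have h0 : (i : ℤ) - (j : ℤ) = 0 := by
    apply Int.eq_zero_of_abs_lt_dvd h
    rw [abs_lt]
    constructor <;> omega
  omega

/-! ### the case `q ∣ N` -/

section dvd

variable {N q : ℕ} [NeZero N]

/-- `q ∣ N`, `t` prime to `q`: `Tr f = Σ_{j<q} f ∣ (1 0; N t j 1)` -/
theorem coe_trOp_eq_lt (hq : q.Prime) (hqN : q ∣ N) (t : ℤ) (ht : ¬ (q : ℤ) ∣ t) {k : ℤ}
    (f : CuspForm (Gamma0 (N * q)) k) :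
    haveI : NeZero q := ⟨hq.ne_zero⟩
    ⇑(trOp N q k f) = ∑ j ∈ Finset.range q, ⇑f ∣[k] lt ((N : ℤ) * t * (j : ℤ)) := by
  haveI : NeZero q := ⟨hq.ne_zero⟩
  have hqZ : Prime (q : ℤ) := Nat.prime_iff_prime_int.mp hq
  have hN : (N : ℤ) ≠ 0 := by exact_mod_cast NeZero.ne N
  rw [coe_trOp_eq_sum (ι := Fin q) (fun j => lt ((N : ℤ) * t * ((j : ℕ) : ℤ))) ?_ ?_ ?_ f]
  · exact Fin.sum_univ_eq_sum_range (fun j => ⇑f ∣[k] lt ((N : ℤ) * t * (j : ℤ))) q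
  · intro j
    rw [lt_mem_iff]
    exact ⟨t * (j : ℤ), by ring⟩
  · intro i j hij
    rw [lt_inv, lt_mul, lt_mem_iff] at hij
    have h1 : ((N : ℤ) * (q : ℤ)) ∣ (N : ℤ) * (t * (((i : ℕ) : ℤ) - ((j : ℕ) : ℤ))) := by
      have e : (N : ℤ) * t * ((i : ℕ) : ℤ) + -((N : ℤ) * t * ((j : ℕ) : ℤ)) =
          (N : ℤ) * (t * (((i : ℕ) : ℤ) - ((j : ℕ) : ℤ))) := by ring
      rw [← e]
      exact_mod_cast hij
    rw [mul_dvd_mul_iff_left hN] at h1
    rcases hqZ.dvd_or_dvd h1 with h2 | h2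
    · exact absurd h2 ht
    · exact Fin.ext (eq_of_dvd_sub_of_lt i.2 j.2 h2)
  · intro g hg
    obtain ⟨c', hc'⟩ := gamma0_dvd hg
    -- `g 0 0` is prime to `q`
    have ha : ¬ (q : ℤ) ∣ g 0 0 := by
      intro hd
      have hdet := det_eq_one g
      have h1 : (q : ℤ) ∣ g 1 0 := by
        rw [hc']
        exact Dvd.dvd.mul_right (Int.natCast_dvd_natCast.mpr hqN) _
      have : (q : ℤ) ∣ 1 := by
        rw [← hdet]
        exact dvd_sub (Dvd.dvd.mul_right hd _) (Dvd.dvd.mul_left h1 _)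
      exact hqZ.not_dvd_one this
    have hta : ¬ (q : ℤ) ∣ t * g 0 0 := by
      intro hd
      rcases hqZ.dvd_or_dvd hd with h2 | h2
      · exact ht h2
      · exact ha h2
    obtain ⟨j, hj, hdvd⟩ := exists_lt_dvd hq hta c'
    refine ⟨⟨j, hj⟩, ?_⟩
    rw [mem_Gamma0_mul_iff, lt_mul_apply_one_zero, hc']
    obtain ⟨s, hs⟩ := hdvd
    refine ⟨s, ?_⟩
    show (N : ℤ) * t * (j : ℤ) * g 0 0 + (N : ℤ) * c' = (N : ℤ) * (q : ℤ) * s
    linear_combination (N : ℤ) * hs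

end dvd

/-! ### the case `q ∤ N` -/

section ndvd

variable {N q : ℕ} [NeZero N] [NeZero q] (x y z w : ℤ) (h : (q : ℤ) * x * w - (N : ℤ) * y * z = 1)

open Fermat.Agent.S41lib.HC (alA) in
/-- `q ∤ N`: `Tr f = f ∣ (x y; N z q w) + Σ_{j<q} f ∣ (1 0; N j 1)` -/
theorem coe_trOp_eq_lt_add (hq : q.Prime) {k : ℤ} (f : CuspForm (Gamma0 (N * q)) k) :
    ⇑(trOp N q k f) = ⇑f ∣[k] ((alA x y z w h : ↥(Gamma0 N)) : SL(2, ℤ)) +
      ∑ j ∈ Finset.range q, ⇑f ∣[k] lt ((N : ℤ) * (j : ℤ)) := by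
  have hqZ : Prime (q : ℤ) := Nat.prime_iff_prime_int.mp hq
  have hN : (N : ℤ) ≠ 0 := by exact_mod_cast NeZero.ne N
  have hqz : ¬ (q : ℤ) ∣ z := by
    intro hd
    have : (q : ℤ) ∣ 1 := by
      rw [← h]
      exact dvd_sub (Dvd.intro (x * w) (by ring)) (Dvd.dvd.mul_left hd _)
    exact hqZ.not_dvd_one this
  have hqN : ¬ (q : ℤ) ∣ (N : ℤ) := by
    intro hd
    have : (q : ℤ) ∣ 1 := by
      rw [← h]
      refine dvd_sub (Dvd.intro (x * w) (by ring)) ?_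
      exact Dvd.dvd.mul_right (Dvd.dvd.mul_right hd _) _
    exact hqZ.not_dvd_one this
  have hA10 : ((alA x y z w h : ↥(Gamma0 N)) : SL(2, ℤ)) 1 0 = (N : ℤ) * z := rfl
  have hA11 : ((alA x y z w h : ↥(Gamma0 N)) : SL(2, ℤ)) 1 1 = (q : ℤ) * w := rfl
  -- `alA * lt c` has lower left entry `N z + q w c`
  have hAlt : ∀ c : ℤ, (((alA x y z w h : ↥(Gamma0 N)) : SL(2, ℤ)) * lt c) 1 0 =
      (N : ℤ) * z + (q : ℤ) * w * c := by
    intro c
    rw [Matrix.SpecialLinearGroup.coe_mul, lt_coe, Matrix.mul_apply, Fin.sum_univ_two]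
    simp [hA10, hA11]
  have hnot : ∀ j : ℤ, ((alA x y z w h : ↥(Gamma0 N)) : SL(2, ℤ)) * lt (-((N : ℤ) * j)) ∉
      Gamma0 (N * q) := by
    intro j hmem
    rw [mem_Gamma0_mul_iff, hAlt] at hmem
    have e : (N : ℤ) * z + (q : ℤ) * w * (-((N : ℤ) * j)) = (N : ℤ) * (z - (q : ℤ) * w * j) := by
      ring
    rw [e, mul_dvd_mul_iff_left hN] at hmem
    apply hqz
    have := dvd_add hmem (Dvd.intro (w * j) (by ring) : (q : ℤ) ∣ (q : ℤ) * w * j)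
    rwa [sub_add_cancel] at this
  let r : Option (Fin q) → SL(2, ℤ) := fun o =>
    match o with
    | none => ((alA x y z w h : ↥(Gamma0 N)) : SL(2, ℤ))
    | some j => lt ((N : ℤ) * ((j : ℕ) : ℤ))
  rw [coe_trOp_eq_sum (ι := Option (Fin q)) r ?_ ?_ ?_ f]
  · rw [Fintype.sum_option]
    congr 1
    exact Fin.sum_univ_eq_sum_range (fun j => ⇑f ∣[k] lt ((N : ℤ) * (j : ℤ))) q
  · rintro (_ | j)
    · exact (alA x y z w h).2
    · show lt _ ∈ Gamma0 N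
      rw [lt_mem_iff]
      exact Dvd.intro _ rfl
  · rintro (_ | i) (_ | j) hij
    · rfl
    · exfalso
      change ((alA x y z w h : ↥(Gamma0 N)) : SL(2, ℤ)) * (lt ((N : ℤ) * ((j : ℕ) : ℤ)))⁻¹ ∈ _ at hij
      rw [lt_inv] at hij
      exact hnot _ hij
    · exfalso
      change lt ((N : ℤ) * ((i : ℕ) : ℤ)) * (((alA x y z w h : ↥(Gamma0 N)) : SL(2, ℤ)))⁻¹ ∈ _ at hij
      have h2 := (Gamma0 (N * q)).inv_mem hij
      rw [_root_.mul_inv_rev, inv_inv, lt_inv] at h2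
      exact hnot _ h2
    · change lt ((N : ℤ) * ((i : ℕ) : ℤ)) * (lt ((N : ℤ) * ((j : ℕ) : ℤ)))⁻¹ ∈ _ at hij
      rw [lt_inv, lt_mul, lt_mem_iff] at hij
      have h1 : ((N : ℤ) * (q : ℤ)) ∣ (N : ℤ) * ((((i : ℕ) : ℤ) - ((j : ℕ) : ℤ))) := by
        have e : (N : ℤ) * ((i : ℕ) : ℤ) + -((N : ℤ) * ((j : ℕ) : ℤ)) =
            (N : ℤ) * ((((i : ℕ) : ℤ) - ((j : ℕ) : ℤ))) := by ring
        rw [← e]
        exact_mod_cast hij
      rw [mul_dvd_mul_iff_left hN] at h1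
      exact congrArg some (Fin.ext (eq_of_dvd_sub_of_lt i.2 j.2 h1))
  · intro g hg
    obtain ⟨c', hc'⟩ := gamma0_dvd hg
    by_cases ha : (q : ℤ) ∣ g 0 0
    · refine ⟨none, ?_⟩
      show ((alA x y z w h : ↥(Gamma0 N)) : SL(2, ℤ)) * g ∈ Gamma0 (N * q)
      rw [mem_Gamma0_mul_iff, Matrix.SpecialLinearGroup.coe_mul, Matrix.mul_apply, Fin.sum_univ_two,
        hA10, hA11, hc']
      obtain ⟨a', ha'⟩ := ha
      refine ⟨z * a' + w * c', ?_⟩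
      rw [ha']
      ring
    · obtain ⟨j, hj, hdvd⟩ := exists_lt_dvd hq ha c'
      refine ⟨some ⟨j, hj⟩, ?_⟩
      show lt ((N : ℤ) * (j : ℤ)) * g ∈ Gamma0 (N * q)
      rw [mem_Gamma0_mul_iff, lt_mul_apply_one_zero, hc']
      obtain ⟨s, hs⟩ := hdvd
      refine ⟨s, ?_⟩
      linear_combination (N : ℤ) * hs

end ndvd

end Fermat.Agent.S59lib.R7b.ALD
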