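/-
S59lib / R7b / ALD / Ambient  (helper1)

All levels in one ambient space: `cf L ⊆ (ℍ → ℂ)` is the space of (functions of) weight two cusp forms on `Γ₀(L)`.
The operators `vF r` (`f ↦ f ∣ diag(r, 1)`), `trF c p` (`f ↦ Σ_{j<p} f ∣ (1 0; c j 1)`) on functions and their
effect on the `cf L`:

* `cf_mono`, `vF_mem_cf`, `heckeU_mem_cf`;
* `trF_mem_cf` (T1): `p ∣ L`, `p ∤ t`, `f ∈ cf (L p)` ⇒ `trF (L t) p f ∈ cf L`;
* `trF_vF` (T2): `trF (r c) p (vF r g) = vF r (trF c p g)`;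
* `trF_of_mem_cf` (T3): `f ∈ cf L`, `L ∣ c` ⇒ `trF c p f = p • f`;
* `trF_add_mem_cf` (T4): `p ∤ M`, `f ∈ cf (M p)` ⇒ `trF M p f + f ∣ (x y; M z p w) ∈ cf M`;
* the Atkin–Lehner facts `slash_alGL_mem_cf`, `slash_alGL_slash_alGL`, `heckeU_add_slash_alGL_mem_cf`,
  `slash_alGL_of_mem_cf`.
-/
import Mathlib
import Fermat.Agent.S59lib.R7b.ALD.SlashOp
import Fermat.Agent.S59lib.R7b.ALD.Trace
import Fermat.Agent.S41lib.NEW.NewSub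

set_option autoImplicit false
set_option linter.unusedSectionVars false
set_option linter.style.haveILetI false

noncomputable section

namespace Fermat.Agent.S59lib.R7b.ALD

open UpperHalfPlane ModularFormClass CongruenceSubgroup ModularForm Matrix Matrix.SpecialLinearGroup
open Fermat.Agent.Helper8 Fermat.Agent.S41lib.NEW Fermat.Agent.S31lib.PET
open scoped MatrixGroups ModularForm

/-! ### the spaces `cf L` -/

/-- coercion to functions, as a linear map -/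
def coeHom (L : ℕ) : CuspForm (Gamma0 L) 2 →ₗ[ℂ] (ℍ → ℂ) where
  toFun F := ⇑F
  map_add' _ _ := rfl
  map_smul' _ _ := rfl

/-- the weight two cusp forms of level `L`, as a space of functions on `ℍ` -/
def cf (L : ℕ) : Submodule ℂ (ℍ → ℂ) := LinearMap.range (coeHom L)

theorem mem_cf {L : ℕ} {f : ℍ → ℂ} : f ∈ cf L ↔ ∃ F : CuspForm (Gamma0 L) 2, ⇑F = f :=
  LinearMap.mem_range

theorem coe_mem_cf {L : ℕ} (F : CuspForm (Gamma0 L) 2) : ⇑F ∈ cf L := mem_cf.mpr ⟨F, rfl⟩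

theorem cf_mono {L L' : ℕ} (h : L ∣ L') : cf L ≤ cf L' := by
  rintro f hf
  obtain ⟨F, rfl⟩ := mem_cf.mp hf
  exact mem_cf.mpr ⟨incl h 2 F, rfl⟩

/-! ### slash operators on functions -/

/-- slash by a matrix of positive determinant, as a linear map on functions -/
def slashLin (g : GL (Fin 2) ℝ) (hdet : 0 < (g.det : ℝ)) : (ℍ → ℂ) →ₗ[ℂ] (ℍ → ℂ) where
  toFun f := f ∣[(2 : ℤ)] g
  map_add' f f' := SlashAction.add_slash _ _ _ _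
  map_smul' c f := by
    have hσ : UpperHalfPlane.σ g = .refl ℝ ℂ := by rw [UpperHalfPlane.σ, if_pos hdet]
    show (c • f) ∣[(2 : ℤ)] g = c • (f ∣[(2 : ℤ)] g)
    rw [ModularForm.smul_slash, hσ, ContinuousAlgEquiv.refl_apply]

@[simp] theorem slashLin_apply (g : GL (Fin 2) ℝ) (hdet : 0 < (g.det : ℝ)) (f : ℍ → ℂ) :
    slashLin g hdet f = f ∣[(2 : ℤ)] g := rfl

theorem det_mapGL_pos' (γ : SL(2, ℤ)) : 0 < ((mapGL ℝ γ : GL (Fin 2) ℝ).det : ℝ) := by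
  simp

/-- slash by an element of `SL₂(ℤ)` -/
def slLin (γ : SL(2, ℤ)) : (ℍ → ℂ) →ₗ[ℂ] (ℍ → ℂ) := slashLin (mapGL ℝ γ) (det_mapGL_pos' γ)

@[simp] theorem slLin_apply (γ : SL(2, ℤ)) (f : ℍ → ℂ) : slLin γ f = f ∣[(2 : ℤ)] γ := rfl

/-- `V_r` on functions -/
def vF (r : ℕ) : (ℍ → ℂ) →ₗ[ℂ] (ℍ → ℂ) := slashLin (heckeDiagMatrix r) (det_heckeDiagMatrix_pos r)

@[simp] theorem vF_apply (r : ℕ) (f : ℍ → ℂ) : vF r f = f ∣[(2 : ℤ)] heckeDiagMatrix r := rfl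

theorem vF_mem_cf {L : ℕ} (r : ℕ) [NeZero r] {f : ℍ → ℂ} (hf : f ∈ cf L) : vF r f ∈ cf (L * r) := by
  obtain ⟨F, rfl⟩ := mem_cf.mp hf
  exact mem_cf.mpr ⟨vOp L r 2 F, rfl⟩

theorem heckeU_mem_cf {L p : ℕ} [NeZero L] (hpL : p ∣ L) {f : ℍ → ℂ} (hf : f ∈ cf L) :
    heckeU 2 p f ∈ cf L := by
  obtain ⟨F, rfl⟩ := mem_cf.mp hf
  exact mem_cf.mpr ⟨CuspForm.heckeULin 2 hpL F, rfl⟩

theorem slash_eq_of_mem_cf {L : ℕ} {f : ℍ → ℂ} (hf : f ∈ cf L) {γ : SL(2, ℤ)} (hγ : γ ∈ Gamma0 L) :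
    f ∣[(2 : ℤ)] γ = f := by
  obtain ⟨F, rfl⟩ := mem_cf.mp hf
  exact SlashInvariantFormClass.slash_action_eq F _ (Subgroup.mem_map.mpr ⟨γ, hγ, rfl⟩)

/-! ### the partial trace `trF` -/

/-- `f ↦ Σ_{j<p} f ∣ (1 0; c j 1)` -/
def trF (c : ℤ) (p : ℕ) : (ℍ → ℂ) →ₗ[ℂ] (ℍ → ℂ) :=
  ∑ j ∈ Finset.range p, slLin (lt (c * (j : ℤ)))

theorem trF_apply (c : ℤ) (p : ℕ) (f : ℍ → ℂ) :
    trF c p f = ∑ j ∈ Finset.range p, f ∣[(2 : ℤ)] lt (c * (j : ℤ)) := by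
  rw [trF, LinearMap.sum_apply]
  rfl

/-- (T3) -/
theorem trF_of_mem_cf {L : ℕ} {c : ℤ} (hLc : (L : ℤ) ∣ c) (p : ℕ) {f : ℍ → ℂ} (hf : f ∈ cf L) :
    trF c p f = (p : ℂ) • f := by
  rw [trF_apply]
  have : ∀ j ∈ Finset.range p, f ∣[(2 : ℤ)] lt (c * (j : ℤ)) = f := by
    intro j _
    exact slash_eq_of_mem_cf hf ((lt_mem_iff L _).mpr (Dvd.dvd.mul_right hLc _))
  rw [Finset.sum_congr rfl this, Finset.sum_const, Finset.card_range, Nat.cast_smul_eq_nsmul]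

/-- (T1) -/
theorem trF_mem_cf {L p : ℕ} [NeZero L] (hp : p.Prime) (hpL : p ∣ L) (t : ℤ) (ht : ¬ (p : ℤ) ∣ t)
    {f : ℍ → ℂ} (hf : f ∈ cf (L * p)) : trF ((L : ℤ) * t) p f ∈ cf L := by
  haveI : NeZero p := ⟨hp.ne_zero⟩
  obtain ⟨F, rfl⟩ := mem_cf.mp hf
  refine mem_cf.mpr ⟨trOp L p 2 F, ?_⟩
  rw [trF_apply]
  exact coe_trOp_eq_lt hp hpL t ht F

theorem conjDiag_lt (r : ℕ) (hr : r ≠ 0) (c : ℤ) (h : (r : ℤ) ∣ (lt ((r : ℤ) * c)) 1 0) :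
    Fermat.Agent.S48lib.DS.conjDiag r (lt ((r : ℤ) * c)) h = lt c := by
  have hr' : (r : ℤ) ≠ 0 := by exact_mod_cast hr
  ext i j
  fin_cases i <;> fin_cases j <;>
    simp [Fermat.Agent.S48lib.DS.conjDiag, lt, Int.mul_ediv_cancel_left _ hr']

/-- `(g ∣ diag(r,1)) ∣ (1 0; r c 1) = (g ∣ (1 0; c 1)) ∣ diag(r,1)` -/
theorem slash_diag_slash_lt (r : ℕ) [NeZero r] (c : ℤ) (g : ℍ → ℂ) :
    (g ∣[(2 : ℤ)] heckeDiagMatrix r) ∣[(2 : ℤ)] lt ((r : ℤ) * c) =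
      (g ∣[(2 : ℤ)] lt c) ∣[(2 : ℤ)] heckeDiagMatrix r := by
  have h : (r : ℤ) ∣ (lt ((r : ℤ) * c)) 1 0 := Dvd.intro c rfl
  have h1 := Fermat.Agent.S48lib.DS.heckeDiag_mul_mapGL r (NeZero.ne r) (lt ((r : ℤ) * c)) h
  rw [conjDiag_lt r (NeZero.ne r) c h] at h1
  rw [ModularForm.SL_slash, ModularForm.SL_slash, ← SlashAction.slash_mul, ← SlashAction.slash_mul]
  exact congrArg (fun m => g ∣[(2 : ℤ)] m) h1

/-- (T2) -/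
theorem trF_vF (r : ℕ) [NeZero r] (c : ℤ) (p : ℕ) (g : ℍ → ℂ) :
    trF ((r : ℤ) * c) p (vF r g) = vF r (trF c p g) := by
  rw [trF_apply, trF_apply, map_sum]
  refine Finset.sum_congr rfl fun j _ => ?_
  rw [vF_apply, vF_apply, mul_assoc]
  exact slash_diag_slash_lt r (c * (j : ℤ)) g

/-! ### the case `p ∤ M` -/

section ndvd

variable {M p : ℕ} [NeZero M] [hp : Fact p.Prime]
  (x y z w : ℤ) (h : (p : ℤ) * x * w - (M : ℤ) * y * z = 1)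

open Fermat.Agent.S41lib.HC (alA)

/-- `W = (x y; M z p w) · diag(p, 1)` -/
theorem alGL_eq_alA_mul' :
    haveI : NeZero p := ⟨hp.out.ne_zero⟩
    alGL x y z w h =
      (mapGL ℝ ((alA x y z w h : ↥(Gamma0 M)) : SL(2, ℤ)) : GL (Fin 2) ℝ) * heckeDiagMatrix p := by
  haveI : NeZero p := ⟨hp.out.ne_zero⟩
  have hℓ0 : p ≠ 0 := NeZero.ne p
  apply Units.ext
  rw [Units.val_mul]
  show ((alGL x y z w h : GL (Fin 2) ℝ) : Matrix (Fin 2) (Fin 2) ℝ) =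
    ((mapGL ℝ ((alA x y z w h : ↥(Gamma0 M)) : SL(2, ℤ)) : GL (Fin 2) ℝ) :
      Matrix (Fin 2) (Fin 2) ℝ) * ((heckeDiagMatrix p : GL (Fin 2) ℝ) : Matrix (Fin 2) (Fin 2) ℝ)
  rw [coe_alGL, coe_mapGL_eq, val_heckeDiagMatrix hℓ0]
  ext i j
  fin_cases i <;> fin_cases j <;>
    simp [alMat, alA, Matrix.mul_apply, Fin.sum_univ_two] <;> ring

/-- (T4) -/
theorem trF_add_mem_cf {f : ℍ → ℂ} (hf : f ∈ cf (M * p)) :
    trF (M : ℤ) p f + f ∣[(2 : ℤ)] ((alA x y z w h : ↥(Gamma0 M)) : SL(2, ℤ)) ∈ cf M := by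
  haveI : NeZero p := ⟨hp.out.ne_zero⟩
  obtain ⟨F, rfl⟩ := mem_cf.mp hf
  refine mem_cf.mpr ⟨trOp M p 2 F, ?_⟩
  rw [trF_apply, coe_trOp_eq_lt_add x y z w h hp.out F, add_comm]

theorem slash_alGL_mem_cf {f : ℍ → ℂ} (hf : f ∈ cf (M * p)) :
    haveI : NeZero p := ⟨hp.out.ne_zero⟩
    f ∣[(2 : ℤ)] alGL x y z w h ∈ cf (M * p) := by
  haveI : NeZero p := ⟨hp.out.ne_zero⟩
  obtain ⟨F, rfl⟩ := mem_cf.mp hf
  exact mem_cf.mpr ⟨wOp x y z w h 2 F, rfl⟩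

theorem slash_alGL_slash_alGL {f : ℍ → ℂ} (hf : f ∈ cf (M * p)) :
    haveI : NeZero p := ⟨hp.out.ne_zero⟩
    (f ∣[(2 : ℤ)] alGL x y z w h) ∣[(2 : ℤ)] alGL x y z w h = f := by
  haveI : NeZero p := ⟨hp.out.ne_zero⟩
  obtain ⟨F, rfl⟩ := mem_cf.mp hf
  have h1 := wOp_wOp_two x y z w h F
  have h2 := congrArg (fun G : CuspForm (Gamma0 (M * p)) 2 => (⇑G : ℍ → ℂ)) h1
  simpa using h2

/-- `U_p f + f ∣ W ∈ cf M` for `f ∈ cf (M p)` -/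
theorem heckeU_add_slash_alGL_mem_cf {f : ℍ → ℂ} (hf : f ∈ cf (M * p)) :
    haveI : NeZero p := ⟨hp.out.ne_zero⟩
    heckeU 2 p f + f ∣[(2 : ℤ)] alGL x y z w h ∈ cf M := by
  haveI : NeZero p := ⟨hp.out.ne_zero⟩
  obtain ⟨F, rfl⟩ := mem_cf.mp hf
  refine mem_cf.mpr ⟨trOp M p 2 (wOp x y z w h 2 F), ?_⟩
  rw [coe_trOp_two x y z w h, wOp_wOp_two, CuspForm.coe_heckeULin_apply, coe_wOp, add_comm]

/-- `f ∣ W = V_p f` for `f` of level `M` -/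
theorem slash_alGL_of_mem_cf {f : ℍ → ℂ} (hf : f ∈ cf M) :
    haveI : NeZero p := ⟨hp.out.ne_zero⟩
    f ∣[(2 : ℤ)] alGL x y z w h = vF p f := by
  haveI : NeZero p := ⟨hp.out.ne_zero⟩
  rw [alGL_eq_alA_mul' x y z w h, SlashAction.slash_mul, vF_apply]
  have h2 : f ∣[(2 : ℤ)] (mapGL ℝ ((alA x y z w h : ↥(Gamma0 M)) : SL(2, ℤ)) : GL (Fin 2) ℝ) = f :=
    slash_eq_of_mem_cf hf (alA x y z w h).2
  rw [h2]

/-- `(f ∣ (x y; M z p w)) ∣ diag(p, 1) = f ∣ W` -/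
theorem slash_alA_slash_diag (f : ℍ → ℂ) :
    haveI : NeZero p := ⟨hp.out.ne_zero⟩
    vF p (f ∣[(2 : ℤ)] ((alA x y z w h : ↥(Gamma0 M)) : SL(2, ℤ))) = f ∣[(2 : ℤ)] alGL x y z w h := by
  haveI : NeZero p := ⟨hp.out.ne_zero⟩
  rw [alGL_eq_alA_mul' x y z w h, SlashAction.slash_mul, vF_apply]
  rfl

end ndvd

end Fermat.Agent.S59lib.R7b.ALD
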