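/-
S59lib / R7b / ALD / Old  (helper1)

The old spaces `oldAt r L = S₂(L/r) + V_r S₂(L/r)`, `oldSub D L = Σ_{r ∈ D, r ∣ L} oldAt r L` (inside `ℍ → ℂ`),
and: the partial trace `trF L p` (`p ∣ L`) maps `oldAt r (L p)` into `oldAt r L` for primes `r ≠ p`.
-/
import Mathlib
import Fermat.Agent.S59lib.R7b.ALD.Ambient

set_option autoImplicit false
set_option linter.unusedSectionVars false
set_option linter.style.haveILetI false

noncomputable section

namespace Fermat.Agent.S59lib.R7b.ALD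

open UpperHalfPlane ModularFormClass CongruenceSubgroup ModularForm Matrix Matrix.SpecialLinearGroup
open Fermat.Agent.Helper8
open scoped MatrixGroups ModularForm

/-- the `r`-old space of level `L` -/
def oldAt (r L : ℕ) : Submodule ℂ (ℍ → ℂ) := cf (L / r) ⊔ (cf (L / r)).map (vF r)

/-- the space of forms old at some prime of `D` dividing `L` -/
def oldSub (D : Finset ℕ) (L : ℕ) : Submodule ℂ (ℍ → ℂ) := ⨆ r ∈ D.filter (fun r => r ∣ L), oldAt r L

theorem oldAt_le_oldSub {D : Finset ℕ} {r L : ℕ} (hr : r ∈ D) (hrL : r ∣ L) :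
    oldAt r L ≤ oldSub D L :=
  le_iSup₂_of_le r (Finset.mem_filter.mpr ⟨hr, hrL⟩) le_rfl

theorem cf_le_oldSub {D : Finset ℕ} {r L : ℕ} (hr : r ∈ D) (hrL : r ∣ L) :
    cf (L / r) ≤ oldSub D L := le_trans le_sup_left (oldAt_le_oldSub hr hrL)

theorem vF_mem_oldSub {D : Finset ℕ} {r L : ℕ} (hr : r ∈ D) (hrL : r ∣ L) {f : ℍ → ℂ}
    (hf : f ∈ cf (L / r)) : vF r f ∈ oldSub D L :=
  oldAt_le_oldSub hr hrL (Submodule.mem_sup_right (Submodule.mem_map_of_mem hf))

theorem oldSub_mono {D D' : Finset ℕ} (h : D' ⊆ D) (L : ℕ) : oldSub D' L ≤ oldSub D L := by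
  refine iSup₂_le fun r hr => ?_
  obtain ⟨hr1, hr2⟩ := Finset.mem_filter.mp hr
  exact oldAt_le_oldSub (h hr1) hr2

/-- the old spaces consist of cusp forms of level `L` -/
theorem oldAt_le_cf {r L : ℕ} [NeZero r] (hrL : r ∣ L) : oldAt r L ≤ cf L := by
  refine sup_le (cf_mono (Nat.div_dvd_of_dvd hrL)) ?_
  rw [Submodule.map_le_iff_le_comap]
  intro f hf
  have := vF_mem_cf r hf
  rwa [Nat.div_mul_cancel hrL] at this

/-- the partial trace maps `r`-old forms of level `L p` to `r`-old forms of level `L` -/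
theorem trF_oldAt_le {L p r : ℕ} [NeZero L] (hp : p.Prime) (hr : r.Prime) (hrp : r ≠ p)
    (hpL : p ∣ L) (hrL : r ∣ L) : (oldAt r (L * p)).map (trF (L : ℤ) p) ≤ oldAt r L := by
  haveI : NeZero r := ⟨hr.ne_zero⟩
  obtain ⟨M, rfl⟩ := hrL
  have hM0 : M ≠ 0 := by
    rintro rfl
    exact (NeZero.ne (r * 0)) (mul_zero r)
  haveI : NeZero M := ⟨hM0⟩
  have e1 : r * M * p / r = M * p := by
    rw [mul_assoc, Nat.mul_div_cancel_left _ hr.pos]
  have e2 : r * M / r = M := Nat.mul_div_cancel_left _ hr.pos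
  have hpM : p ∣ M := by
    rcases (Nat.Prime.dvd_mul hp).mp hpL with h | h
    · exact absurd ((Nat.prime_dvd_prime_iff_eq hp hr).mp h).symm hrp
    · exact h
  have hpr : ¬ (p : ℤ) ∣ (r : ℤ) := by
    intro h
    exact hrp ((Nat.prime_dvd_prime_iff_eq hp hr).mp (Int.natCast_dvd_natCast.mp h)).symm
  have hp1 : ¬ (p : ℤ) ∣ (1 : ℤ) := (Nat.prime_iff_prime_int.mp hp).not_dvd_one
  rw [oldAt, oldAt, e1, e2, Submodule.map_sup]
  refine sup_le_sup ?_ ?_
  · -- the inclusion part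
    rw [Submodule.map_le_iff_le_comap]
    intro g hg
    have h1 := trF_mem_cf hp hpM (r : ℤ) hpr hg
    have e : ((r * M : ℕ) : ℤ) = (M : ℤ) * (r : ℤ) := by push_cast; ring
    show trF ((r * M : ℕ) : ℤ) p g ∈ cf M
    rw [e]
    exact h1
  · -- the `V_r` part
    rw [Submodule.map_le_iff_le_comap, Submodule.map_le_iff_le_comap]
    intro g hg
    show trF ((r * M : ℕ) : ℤ) p (vF r g) ∈ (cf M).map (vF r)
    have e : ((r * M : ℕ) : ℤ) = (r : ℤ) * (M : ℤ) := by push_cast; ring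
    rw [e, trF_vF]
    refine Submodule.mem_map_of_mem ?_
    have h1 := trF_mem_cf hp hpM (1 : ℤ) hp1 hg
    rwa [mul_one] at h1

/-- the partial trace maps `oldSub D' (L p)` into `oldSub D' L` when `p ∉ D'` -/
theorem trF_oldSub_le {D' : Finset ℕ} (hD' : ∀ q ∈ D', q.Prime) {L p : ℕ} [NeZero L] (hp : p.Prime)
    (hpD' : p ∉ D') (hpL : p ∣ L) : (oldSub D' (L * p)).map (trF (L : ℤ) p) ≤ oldSub D' L := by
  rw [Submodule.map_le_iff_le_comap]
  refine iSup₂_le fun r hr => ?_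
  obtain ⟨hr1, hr2⟩ := Finset.mem_filter.mp hr
  have hrp : r ≠ p := fun h => hpD' (h ▸ hr1)
  have hrL : r ∣ L := by
    rcases (Nat.Prime.dvd_mul (hD' r hr1)).mp hr2 with h | h
    · exact h
    · exact absurd ((Nat.prime_dvd_prime_iff_eq (hD' r hr1) hp).mp h) hrp
  rw [← Submodule.map_le_iff_le_comap]
  exact le_trans (trF_oldAt_le hp (hD' r hr1) hrp hpL hrL) (oldAt_le_oldSub hr1 hrL)

end Fermat.Agent.S59lib.R7b.ALD
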