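/-
S59lib / R7b / ALD / Main  (helper1)

**Weak Atkin–Lehner Theorem 1′ (D1)** (`coe_mem_oldSub_of_qCoeff`):  `D` a finite set of primes, `F ∈ S₂(Γ₀(L))` with
`a_n(F) = 0` for all `n` prime to `D`  ⟹  `F ∈ Σ_{r ∈ D, r ∣ L} (S₂(L/r) + V_r S₂(L/r))`.

Proof (helper3's trace argument): induction on `|D|`, all levels at once.  If no prime of `D` divides `L`, `F = 0`
(`Base`).  Otherwise take `p ∈ D`, `p ∣ L`; the `p`-depletion `G = F - p⁻¹ V_p U_p F` has level `L p` and vanishes off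
`D' = D \ {p}`, so it is `D'`-old of level `L p`; the partial trace `Σ_j ∣ (1 0; L j 1)` maps it to a `D'`-old form of
level `L`, which is `p F - p⁻¹ V_p (Σ_j (U_p F) ∣ (1 0; (L/p) j 1))`.  If `p² ∣ L` the inner sum has level `L/p`; if
`p ∥ L` it is a form of level `L/p` minus `(U_p F) ∣ (x y; (L/p) z p w)`, and `V_p` of the latter is `(U_p F) ∣ W_p =
V_p T - F` (`T` of level `L/p`) by the trace formula `Tr (F ∣ W_p) = F ∣ W_p + U_p F`; so `(p - p⁻¹) F` is `D`-old.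
-/
import Mathlib
import Fermat.Agent.S59lib.R7b.ALD.Base
import Fermat.Agent.S59lib.R7b.ALD.Old

set_option autoImplicit false
set_option linter.unusedSectionVars false
set_option linter.style.haveILetI false

noncomputable section

namespace Fermat.Agent.S59lib.R7b.ALD

open UpperHalfPlane ModularFormClass CongruenceSubgroup ModularForm Matrix Matrix.SpecialLinearGroup
open Fermat.Agent.Helper8 Fermat.Agent.S31lib.PET
open scoped MatrixGroups ModularForm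

/-! ### the depletion at a prime dividing the level -/

/-- the `p`-depletion `F - p⁻¹ V_p U_p F` at level `L p`, for `p ∣ L` -/
def depl (L p : ℕ) [NeZero L] [NeZero p] (hpL : p ∣ L) (F : CuspForm (Gamma0 L) 2) :
    CuspForm (Gamma0 (L * p)) 2 :=
  incl (dvd_mul_right L p) 2 F - (p : ℂ)⁻¹ • vOp L p 2 (CuspForm.heckeULin 2 hpL F)

theorem coe_depl (L p : ℕ) [NeZero L] [NeZero p] (hpL : p ∣ L) (F : CuspForm (Gamma0 L) 2) :
    ⇑(depl L p hpL F) = ⇑F - (p : ℂ)⁻¹ • vF p (heckeU 2 p ⇑F) := rfl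

theorem qCoeff_depl (L p : ℕ) [NeZero L] [NeZero p] (hpL : p ∣ L) (F : CuspForm (Gamma0 L) 2)
    (n : ℕ) : qCoeff ⇑(depl L p hpL F) n = if p ∣ n then 0 else qCoeff ⇑F n := by
  have hp : p ≠ 0 := NeZero.ne p
  have hp' : (p : ℂ) ≠ 0 := by exact_mod_cast hp
  rw [depl, qCoeff_sub, qCoeff_smul, qCoeff_vOp, qCoeff_incl]
  by_cases h : p ∣ n
  · rw [if_pos h, if_pos h]
    have h1 : qCoeff ⇑(CuspForm.heckeULin 2 hpL F) (n / p) = qCoeff ⇑F n := by
      rw [CuspForm.coe_heckeULin_apply,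
        ModularFormClass.qCoeff_heckeU F (one_mem_strictPeriods L) hp (n / p), coeffHeckeU_apply,
        Nat.div_mul_cancel h]
    rw [h1]
    have h3 : ((p : ℂ)) ^ ((2 : ℤ) - 1) = (p : ℂ) := by norm_num
    rw [h3]
    field_simp
    ring
  · rw [if_neg h, if_neg h, mul_zero, sub_zero]

/-! ### the inductive step -/

/-- the step when `p² ∣ L` -/
theorem step_sq {D : Finset ℕ} {L p : ℕ} [NeZero L] (hp : p.Prime) (hpD : p ∈ D) (hpL : p ∣ L)
    (hpM : p ∣ L / p) {f : ℍ → ℂ} (hf : f ∈ cf L)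
    (hG : trF (L : ℤ) p (f - (p : ℂ)⁻¹ • vF p (heckeU 2 p f)) ∈ oldSub D L) : f ∈ oldSub D L := by
  haveI : NeZero p := ⟨hp.ne_zero⟩
  have hp' : (p : ℂ) ≠ 0 := by exact_mod_cast hp.ne_zero
  obtain ⟨M, rfl⟩ := hpL
  have hM : p * M / p = M := Nat.mul_div_cancel_left _ hp.pos
  rw [hM] at hpM
  have hM0 : M ≠ 0 := by
    rintro rfl
    exact (NeZero.ne (p * 0)) (mul_zero p)
  haveI : NeZero M := ⟨hM0⟩
  have hH : heckeU 2 p f ∈ cf (p * M) := heckeU_mem_cf (Dvd.intro M rfl) hf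
  have e : ((p * M : ℕ) : ℤ) = (p : ℤ) * (M : ℤ) := by push_cast; ring
  rw [map_sub, map_smul, trF_of_mem_cf dvd_rfl p hf, e, trF_vF] at hG
  -- the inner trace has level `M`
  have hT : trF (M : ℤ) p (heckeU 2 p f) ∈ cf M := by
    have hH' : heckeU 2 p f ∈ cf (M * p) := by rwa [mul_comm]
    have := trF_mem_cf hp hpM (1 : ℤ) (Nat.prime_iff_prime_int.mp hp).not_dvd_one hH'
    rwa [mul_one] at this
  have hV : vF p (trF (M : ℤ) p (heckeU 2 p f)) ∈ oldSub D (p * M) :=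
    vF_mem_oldSub hpD (Dvd.intro M rfl) (by rwa [hM])
  have h1 : (p : ℂ) • f ∈ oldSub D (p * M) := by
    have := Submodule.add_mem _ hG (Submodule.smul_mem _ (p : ℂ)⁻¹ hV)
    rwa [sub_add_cancel] at this
  have h2 := Submodule.smul_mem _ (p : ℂ)⁻¹ h1
  rwa [smul_smul, inv_mul_cancel₀ hp', one_smul] at h2

/-- the step when `p ∥ L` -/
theorem step_exact {D : Finset ℕ} {L p : ℕ} [NeZero L] (hp : p.Prime) (hpD : p ∈ D) (hpL : p ∣ L)
    (hpM : ¬ p ∣ L / p) {f : ℍ → ℂ} (hf : f ∈ cf L)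
    (hG : trF (L : ℤ) p (f - (p : ℂ)⁻¹ • vF p (heckeU 2 p f)) ∈ oldSub D L) : f ∈ oldSub D L := by
  haveI : NeZero p := ⟨hp.ne_zero⟩
  haveI : Fact p.Prime := ⟨hp⟩
  have hp' : (p : ℂ) ≠ 0 := by exact_mod_cast hp.ne_zero
  obtain ⟨M, rfl⟩ := hpL
  have hM : p * M / p = M := Nat.mul_div_cancel_left _ hp.pos
  rw [hM] at hpM
  have hM0 : M ≠ 0 := by
    rintro rfl
    exact (NeZero.ne (p * 0)) (mul_zero p)
  haveI : NeZero M := ⟨hM0⟩
  obtain ⟨x, y, z, w, h⟩ := Fermat.Agent.S41lib.HC.exists_al_params (N := M) (q := p) hpM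
  have hf' : f ∈ cf (M * p) := by rwa [mul_comm]
  have hH : heckeU 2 p f ∈ cf (M * p) := heckeU_mem_cf (Dvd.intro_left M rfl) hf'
  have e : ((p * M : ℕ) : ℤ) = (p : ℤ) * (M : ℤ) := by push_cast; ring
  rw [map_sub, map_smul, trF_of_mem_cf dvd_rfl p hf, e, trF_vF] at hG
  -- (T4): the inner trace
  have hT1 := trF_add_mem_cf x y z w h hH
  set T₁ := trF (M : ℤ) p (heckeU 2 p f) +
    heckeU 2 p f ∣[(2 : ℤ)] ((Fermat.Agent.S41lib.HC.alA x y z w h : ↥(Gamma0 M)) : SL(2, ℤ)) with hT₁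
  -- (W2): `U_p f = T₂ - f ∣ W`
  have hT2 := heckeU_add_slash_alGL_mem_cf x y z w h hf'
  set T₂ := heckeU 2 p f + f ∣[(2 : ℤ)] alGL x y z w h with hT₂
  -- `V_p` of the inner trace
  have h3 : vF p (trF (M : ℤ) p (heckeU 2 p f)) = vF p T₁ - vF p T₂ + f := by
    have e1 : trF (M : ℤ) p (heckeU 2 p f) = T₁ -
        heckeU 2 p f ∣[(2 : ℤ)] ((Fermat.Agent.S41lib.HC.alA x y z w h : ↥(Gamma0 M)) : SL(2, ℤ)) := by
      rw [hT₁, add_sub_cancel_right]
    have e2 : heckeU 2 p f = T₂ - f ∣[(2 : ℤ)] alGL x y z w h := by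
      rw [hT₂, add_sub_cancel_right]
    have e3 : (heckeU 2 p f) ∣[(2 : ℤ)] alGL x y z w h = vF p T₂ - f := by
      conv_lhs => rw [e2]
      rw [sub_eq_add_neg, SlashAction.add_slash, SlashAction.neg_slash,
        slash_alGL_slash_alGL x y z w h hf', slash_alGL_of_mem_cf x y z w h hT2, ← sub_eq_add_neg]
    rw [e1, map_sub, slash_alA_slash_diag x y z w h, e3]
    abel
  rw [h3] at hG
  have hV1 : vF p T₁ ∈ oldSub D (p * M) := vF_mem_oldSub hpD (Dvd.intro M rfl) (by rwa [hM])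
  have hV2 : vF p T₂ ∈ oldSub D (p * M) := vF_mem_oldSub hpD (Dvd.intro M rfl) (by rwa [hM])
  -- `(p - p⁻¹) f` is old
  have h4 : ((p : ℂ) - (p : ℂ)⁻¹) • f ∈ oldSub D (p * M) := by
    have := Submodule.add_mem _ hG
      (Submodule.smul_mem _ (p : ℂ)⁻¹ (Submodule.sub_mem _ hV1 hV2))
    have e4 : (p : ℂ) • f - (p : ℂ)⁻¹ • (vF p T₁ - vF p T₂ + f) + (p : ℂ)⁻¹ • (vF p T₁ - vF p T₂) =
        ((p : ℂ) - (p : ℂ)⁻¹) • f := by
      rw [smul_add, sub_smul]
      abel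
    rwa [e4] at this
  have hne : (p : ℂ) - (p : ℂ)⁻¹ ≠ 0 := by
    intro h0
    have h5 : (p : ℂ) * (p : ℂ) = 1 := by
      have := sub_eq_zero.mp h0
      calc (p : ℂ) * (p : ℂ) = (p : ℂ)⁻¹ * (p : ℂ) := by rw [← this]
        _ = 1 := inv_mul_cancel₀ hp'
    have h6 : (p * p : ℕ) = 1 := by exact_mod_cast h5
    have := hp.two_le
    nlinarith
  have h7 := Submodule.smul_mem _ ((p : ℂ) - (p : ℂ)⁻¹)⁻¹ h4
  rwa [smul_smul, inv_mul_cancel₀ hne, one_smul] at h7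

/-! ### the theorem -/

/-- **Weak Atkin–Lehner Theorem 1′ (D1).** -/
theorem coe_mem_oldSub_of_qCoeff (n : ℕ) : ∀ (D : Finset ℕ), D.card = n → (∀ q ∈ D, q.Prime) →
    ∀ (L : ℕ) [NeZero L] (F : CuspForm (Gamma0 L) 2),
      (∀ m, (∀ q ∈ D, ¬ q ∣ m) → qCoeff ⇑F m = 0) → ⇑F ∈ oldSub D L := by
  classical
  induction n with
  | zero =>
    intro D hcard _ L _ F hW
    rw [Finset.card_eq_zero] at hcard
    subst hcard
    have : F = 0 :=
      eq_zero_of_qCoeff_eq_zero F fun m => hW m (fun q hq => absurd hq (Finset.notMem_empty q))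
    rw [this]
    exact Submodule.zero_mem _
  | succ n ih =>
    intro D hcard hD L _ F hW
    by_cases hex : ∃ p ∈ D, p ∣ L
    · obtain ⟨p, hpD, hpL⟩ := hex
      have hp := hD p hpD
      haveI : NeZero p := ⟨hp.ne_zero⟩
      set D' := D.erase p with hD'
      have hcard' : D'.card = n := by rw [hD', Finset.card_erase_of_mem hpD, hcard]; rfl
      have hD'p : ∀ q ∈ D', q.Prime := fun q hq => hD q (Finset.mem_of_mem_erase hq)
      have hpD' : p ∉ D' := Finset.notMem_erase p D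
      -- the depletion is `D'`-old of level `L p`
      have hG := ih D' hcard' hD'p (L * p) (depl L p hpL F) (by
        intro m hm
        rw [qCoeff_depl]
        by_cases h : p ∣ m
        · rw [if_pos h]
        · rw [if_neg h]
          apply hW
          intro q hq
          by_cases hqp : q = p
          · rw [hqp]; exact h
          · exact hm q (Finset.mem_erase.mpr ⟨hqp, hq⟩))
      -- its partial trace is `D`-old of level `L`
      have hG' : trF (L : ℤ) p (⇑F - (p : ℂ)⁻¹ • vF p (heckeU 2 p ⇑F)) ∈ oldSub D L := by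
        rw [← coe_depl L p hpL F]
        exact oldSub_mono (Finset.erase_subset p D) L
          (trF_oldSub_le hD'p hp hpD' hpL (Submodule.mem_map_of_mem hG))
      by_cases hpM : p ∣ L / p
      · exact step_sq hp hpD hpL hpM (coe_mem_cf F) hG'
      · exact step_exact hp hpD hpL hpM (coe_mem_cf F) hG'
    · -- no prime of `D` divides `L`
      have : F = 0 := eq_zero_of_qCoeff_coprime_finset D L
        (fun q hq => ⟨hD q hq, fun h => hex ⟨q, hq, h⟩⟩) F hW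
      rw [this]
      exact Submodule.zero_mem _

/-- (D1), without the cardinality -/
theorem coe_mem_oldSub (D : Finset ℕ) (hD : ∀ q ∈ D, q.Prime) (L : ℕ) [NeZero L]
    (F : CuspForm (Gamma0 L) 2) (hW : ∀ m, (∀ q ∈ D, ¬ q ∣ m) → qCoeff ⇑F m = 0) :
    ⇑F ∈ oldSub D L :=
  coe_mem_oldSub_of_qCoeff D.card D rfl hD L F hW

theorem exists_of_mem_oldAt {r L : ℕ} {f : ℍ → ℂ} (hf : f ∈ oldAt r L) :
    ∃ G H : CuspForm (Gamma0 (L / r)) 2, f = ⇑G + ⇑H ∣[(2 : ℤ)] heckeDiagMatrix r := by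
  obtain ⟨g, hg, v, hv, rfl⟩ := Submodule.mem_sup.mp hf
  obtain ⟨G, rfl⟩ := mem_cf.mp hg
  obtain ⟨h', hh', rfl⟩ := Submodule.mem_map.mp hv
  obtain ⟨H, rfl⟩ := mem_cf.mp hh'
  exact ⟨G, H, rfl⟩

/-- (D1) in explicit form: `F = Σ_{r ∈ D, r ∣ L} (G_r + V_r H_r)` with `G_r, H_r` of level `L / r` -/
theorem exists_old_decomposition (D : Finset ℕ) (hD : ∀ q ∈ D, q.Prime) (L : ℕ) [NeZero L]
    (F : CuspForm (Gamma0 L) 2) (hW : ∀ m, (∀ q ∈ D, ¬ q ∣ m) → qCoeff ⇑F m = 0) :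
    ∃ G H : ∀ r : ℕ, CuspForm (Gamma0 (L / r)) 2,
      ⇑F = ∑ r ∈ D.filter (fun r => r ∣ L), (⇑(G r) + ⇑(H r) ∣[(2 : ℤ)] heckeDiagMatrix r) := by
  classical
  have h1 := coe_mem_oldSub D hD L F hW
  rw [oldSub, Submodule.mem_iSup_finset_iff_exists_sum] at h1
  obtain ⟨μ, hμ⟩ := h1
  choose G H hGH using fun r : ℕ => exists_of_mem_oldAt (μ r).2
  refine ⟨G, H, ?_⟩
  rw [← hμ]
  exact Finset.sum_congr rfl fun r _ => hGH r

end Fermat.Agent.S59lib.R7b.ALD
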