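/-
S59lib / R7b / ALD / Eigen  (helper1)

Anemic eigenspaces in the ambient space.  `D` a finite set of primes containing the primes of the level; for `M` with
all primes in `D`, `eigD D ψ M ⊆ cf M` is the simultaneous eigenspace `T_ℓ f = ψ ℓ • f` (`ℓ ∉ D` prime).

* `heckeT_mem_cf`, `heckeT_vF` (`T_ℓ V_r = V_r T_ℓ` on forms, `ℓ ≠ r`);
* `cf_le_span_eig`, `map_vF_cf_le_span_eig` : `cf M`, `V_r (cf M)` are spanned by simultaneous eigenvectors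
  (main's `PET.exists_eigenbasis'`);
* `qCoeff_eq_zero_of_eig` : a `ψ`-eigenvector with `a₁ = 0` vanishes off `D`;
* **(D2′)** `mem_oldEig_of_qCoeff`, `smul_sub_smul_mem_oldEig` : for `f, g ∈ eigD D ψ L`,
  `a₁(g) f - a₁(f) g ∈ Σ_{r ∈ D, r ∣ L} (eigD D ψ (L/r) + V_r eigD D ψ (L/r))`.
-/
import Mathlib
import Fermat.Agent.S59lib.R7b.ALD.Main
import Fermat.Agent.S59lib.R7b.ALD.EigAbs
import Fermat.Agent.S31lib.PET.Main

set_option autoImplicit false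
set_option linter.unusedSectionVars false
set_option linter.style.haveILetI false

noncomputable section

namespace Fermat.Agent.S59lib.R7b.ALD

open UpperHalfPlane ModularFormClass CongruenceSubgroup ModularForm Matrix Matrix.SpecialLinearGroup
open Fermat.Agent.Helper8
open scoped MatrixGroups ModularForm

/-! ### the Hecke operators on functions -/

/-- `T_ℓ` (weight two) as a linear map on functions -/
def hT (ℓ : ℕ) : (ℍ → ℂ) →ₗ[ℂ] (ℍ → ℂ) where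
  toFun f := heckeT 2 ℓ f
  map_add' f g := heckeT_add 2 ℓ f g
  map_smul' c f := heckeT_smul 2 ℓ c f

@[simp] theorem hT_apply (ℓ : ℕ) (f : ℍ → ℂ) : hT ℓ f = heckeT 2 ℓ f := rfl

theorem heckeT_mem_cf {M ℓ : ℕ} (hℓ : ℓ.Prime) (hℓM : ¬ ℓ ∣ M) {f : ℍ → ℂ} (hf : f ∈ cf M) :
    heckeT 2 ℓ f ∈ cf M := by
  obtain ⟨F, rfl⟩ := mem_cf.mp hf
  exact mem_cf.mpr ⟨CuspForm.heckeTLin 2 hℓ hℓM F, rfl⟩

/-- `T_ℓ V_r = V_r T_ℓ` on cusp forms (`ℓ ≠ r` primes, `ℓ ∤ M`) -/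
theorem heckeT_vF {M ℓ r : ℕ} [NeZero M] (hℓ : ℓ.Prime) (hr : r.Prime) (hℓr : ℓ ≠ r) (hℓM : ¬ ℓ ∣ M)
    {f : ℍ → ℂ} (hf : f ∈ cf M) : heckeT 2 ℓ (vF r f) = vF r (heckeT 2 ℓ f) := by
  haveI : NeZero r := ⟨hr.ne_zero⟩
  obtain ⟨F, rfl⟩ := mem_cf.mp hf
  have hℓMr : ¬ ℓ ∣ M * r := by
    intro h
    rcases (Nat.Prime.dvd_mul hℓ).mp h with h | h
    · exact hℓM h
    · exact hℓr ((Nat.prime_dvd_prime_iff_eq hℓ hr).mp h)
  have hcop : Nat.Coprime r ℓ := (Nat.coprime_primes hr hℓ).mpr hℓr.symm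
  -- both sides are forms of level `M r`; compare `q`-expansions
  have key : CuspForm.heckeTLin 2 hℓ hℓMr (vOp M r 2 F) = vOp M r 2 (CuspForm.heckeTLin 2 hℓ hℓM F) := by
    rw [← sub_eq_zero]
    apply eq_zero_of_qCoeff_eq_zero
    intro n
    rw [qCoeff_sub, qCoeff_heckeTLin, qCoeff_vOp, qCoeff_heckeTLin, coeffHeckeT_apply,
      coeffHeckeT_apply, qCoeff_vOp, qCoeff_vOp]
    have h3 : ((r : ℂ)) ^ ((2 : ℤ) - 1) = (r : ℂ) := by norm_num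
    have h4 : ((ℓ : ℂ)) ^ ((2 : ℤ) - 1) = (ℓ : ℂ) := by norm_num
    rw [h3, h4]
    have e1 : r ∣ n * ℓ ↔ r ∣ n := hcop.dvd_mul_right
    by_cases hrn : r ∣ n
    · obtain ⟨m, rfl⟩ := hrn
      have e2 : r * m * ℓ / r = m * ℓ := by rw [mul_assoc, Nat.mul_div_cancel_left _ hr.pos]
      have e3 : r * m / r = m := Nat.mul_div_cancel_left _ hr.pos
      have e4 : ℓ ∣ r * m ↔ ℓ ∣ m := hcop.symm.dvd_mul_left
      rw [if_pos (e1.mpr (Dvd.intro m rfl)), if_pos (Dvd.intro m rfl), e2, e3]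
      by_cases hℓm : ℓ ∣ m
      · obtain ⟨k, rfl⟩ := hℓm
        have e5 : r * (ℓ * k) / ℓ = r * k := by
          rw [mul_left_comm, Nat.mul_div_cancel_left _ hℓ.pos]
        have e6 : r * k / r = k := Nat.mul_div_cancel_left _ hr.pos
        have e7 : ℓ * k / ℓ = k := Nat.mul_div_cancel_left _ hℓ.pos
        rw [if_pos (e4.mpr (Dvd.intro k rfl)), if_pos (Dvd.intro k rfl), e5, if_pos (Dvd.intro k rfl),
          e6, e7]
        ring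
      · rw [if_neg (fun h => hℓm (e4.mp h)), if_neg hℓm]
        ring
    · rw [if_neg (fun h => hrn (e1.mp h)), if_neg hrn]
      by_cases hℓn : ℓ ∣ n
      · obtain ⟨k, rfl⟩ := hℓn
        have e7 : ℓ * k / ℓ = k := Nat.mul_div_cancel_left _ hℓ.pos
        have hrk : ¬ r ∣ k := fun h => hrn (Dvd.dvd.mul_left h ℓ)
        rw [if_pos (Dvd.intro k rfl), e7, if_neg hrk]
        ring
      · rw [if_neg hℓn]
        ring
  have := congrArg (fun G : CuspForm (Gamma0 (M * r)) 2 => (⇑G : ℍ → ℂ)) key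
  exact this

/-- `V_r` is injective on functions -/
theorem vF_injective (r : ℕ) : Function.Injective (vF r) := by
  intro f g hfg
  have h1 : (vF r f) ∣[(2 : ℤ)] (heckeDiagMatrix r)⁻¹ = (vF r g) ∣[(2 : ℤ)] (heckeDiagMatrix r)⁻¹ := by
    rw [hfg]
  rwa [vF_apply, vF_apply, ← SlashAction.slash_mul, ← SlashAction.slash_mul, mul_inv_cancel,
    SlashAction.slash_one, SlashAction.slash_one] at h1

/-! ### the anemic eigenspaces -/

/-- the index set: primes outside `D` -/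
abbrev PrimeNotIn (D : Finset ℕ) : Type := {ℓ : ℕ // ℓ.Prime ∧ ℓ ∉ D}

/-- the family of anemic Hecke operators -/
def hTfam (D : Finset ℕ) : PrimeNotIn D → (ℍ → ℂ) →ₗ[ℂ] (ℍ → ℂ) := fun i => hT i.1

/-- the restriction of a system of eigenvalues -/
def resSys (D : Finset ℕ) (ψ : ℕ → ℂ) : PrimeNotIn D → ℂ := fun i => ψ i.1

/-- the anemic `ψ`-eigenspace of level `M` -/
def eigD (D : Finset ℕ) (ψ : ℕ → ℂ) (M : ℕ) : Submodule ℂ (ℍ → ℂ) :=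
  cf M ⊓ eigSub (hTfam D) (resSys D ψ)

theorem mem_eigD {D : Finset ℕ} {ψ : ℕ → ℂ} {M : ℕ} {f : ℍ → ℂ} :
    f ∈ eigD D ψ M ↔ f ∈ cf M ∧ ∀ ℓ : ℕ, ℓ.Prime → ℓ ∉ D → heckeT 2 ℓ f = ψ ℓ • f := by
  rw [eigD, Submodule.mem_inf, mem_eigSub]
  refine and_congr_right fun _ => ⟨fun h ℓ hℓ hℓD => h ⟨ℓ, hℓ, hℓD⟩, fun h i => h i.1 i.2.1 i.2.2⟩

theorem eigD_le_cf (D : Finset ℕ) (ψ : ℕ → ℂ) (M : ℕ) : eigD D ψ M ≤ cf M := inf_le_left

theorem eigD_mono (D : Finset ℕ) (ψ : ℕ → ℂ) {M M' : ℕ} (h : M ∣ M') : eigD D ψ M ≤ eigD D ψ M' :=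
  inf_le_inf_right _ (cf_mono h)

/-- `V_r` maps the `ψ`-eigenspace of level `M` into that of level `M r` -/
theorem vF_mem_eigD {D : Finset ℕ} {ψ : ℕ → ℂ} {M r : ℕ} [NeZero M]
    (hDM : ∀ q : ℕ, q.Prime → q ∣ M → q ∈ D) (hr : r.Prime) (hrD : r ∈ D) {f : ℍ → ℂ}
    (hf : f ∈ eigD D ψ M) : vF r f ∈ eigD D ψ (M * r) := by
  haveI : NeZero r := ⟨hr.ne_zero⟩
  obtain ⟨hf1, hf2⟩ := mem_eigD.mp hf
  refine mem_eigD.mpr ⟨vF_mem_cf r hf1, fun ℓ hℓ hℓD => ?_⟩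
  have hℓr : ℓ ≠ r := fun h => hℓD (h ▸ hrD)
  have hℓM : ¬ ℓ ∣ M := fun h => hℓD (hDM ℓ hℓ h)
  rw [heckeT_vF hℓ hr hℓr hℓM hf1, hf2 ℓ hℓ hℓD, map_smul]

/-! ### spanning by eigenvectors -/

open Fermat.Agent.S31lib.PET in
/-- `cf M` is spanned by simultaneous eigenvectors of the anemic Hecke operators -/
theorem cf_le_span_eig (D : Finset ℕ) {M : ℕ} [NeZero M] (hDM : ∀ q : ℕ, q.Prime → q ∣ M → q ∈ D) :
    cf M ≤ Submodule.span ℂ {w | w ∈ cf M ∧ ∃ χ : PrimeNotIn D → ℂ, w ∈ eigSub (hTfam D) χ} := by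
  classical
  obtain ⟨ι', _, b, χ, hb⟩ := exists_eigenbasis' (N := M) (S := (↑D : Set ℕ)) hDM
  rintro f hf
  obtain ⟨F, rfl⟩ := mem_cf.mp hf
  have hF : F = ∑ i, b.repr F i • b i := (b.sum_repr F).symm
  have h1 : (⇑F : ℍ → ℂ) = ∑ i, b.repr F i • (⇑(b i) : ℍ → ℂ) := by
    conv_lhs => rw [hF]
    exact map_sum (coeHom M) _ _
  rw [h1]
  refine Submodule.sum_mem _ fun i _ => Submodule.smul_mem _ _ (Submodule.subset_span ?_)
  refine ⟨coe_mem_cf (b i), fun j : PrimeNotIn D => χ i (CuspForm.heckeAlgebra.T j.2.1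
    (fun h => j.2.2 (hDM j.1 j.2.1 h)) (by simpa using j.2.2)), ?_⟩
  intro j
  have h2 := hb i (CuspForm.heckeAlgebra.T j.2.1 (fun h => j.2.2 (hDM j.1 j.2.1 h))
    (by simpa using j.2.2))
  have h3 := congrArg (fun G : CuspForm (Gamma0 M) 2 => (⇑G : ℍ → ℂ)) h2
  exact h3

/-- `V_r (cf M)` is spanned by simultaneous eigenvectors -/
theorem map_vF_cf_le_span_eig (D : Finset ℕ) {M r : ℕ} [NeZero M]
    (hDM : ∀ q : ℕ, q.Prime → q ∣ M → q ∈ D) (hr : r.Prime) (hrD : r ∈ D) :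
    (cf M).map (vF r) ≤ Submodule.span ℂ
      {w | w ∈ (cf M).map (vF r) ∧ ∃ χ : PrimeNotIn D → ℂ, w ∈ eigSub (hTfam D) χ} := by
  refine le_trans (Submodule.map_mono (cf_le_span_eig D hDM)) ?_
  rw [Submodule.map_span]
  refine Submodule.span_mono ?_
  rintro _ ⟨w, ⟨hw, χ, hχ⟩, rfl⟩
  refine ⟨Submodule.mem_map_of_mem hw, χ, fun j => ?_⟩
  have hℓr : j.1 ≠ r := fun h => j.2.2 (h ▸ hrD)
  have hℓM : ¬ j.1 ∣ M := fun h => j.2.2 (hDM j.1 j.2.1 h)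
  show heckeT 2 j.1 (vF r w) = χ j • vF r w
  rw [heckeT_vF j.2.1 hr hℓr hℓM hw, ← map_smul]
  exact congrArg (vF r) (hχ j)

end Fermat.Agent.S59lib.R7b.ALD
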