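/-
S59lib / R7b / ALD / EigOld  (helper1)

**(D2′)**: `D ⊇ primes(L)` a finite set of primes, `ψ : ℕ → ℂ`.  For `f, g ∈ eigD D ψ L`,
`a₁(g) f - a₁(f) g ∈ oldEig D ψ L := Σ_{r ∈ D, r ∣ L} (eigD D ψ (L/r) + V_r eigD D ψ (L/r))`
(`smul_sub_smul_mem_oldEig`); more generally a `ψ`-eigenvector of level `L` whose `q`-expansion vanishes off `D`
is in `oldEig D ψ L` (`mem_oldEig_of_qCoeff`), e.g. when `a₁ = 0` (`mem_oldEig_of_qCoeff_one`).
-/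
import Mathlib
import Fermat.Agent.S59lib.R7b.ALD.Eigen

set_option autoImplicit false
set_option linter.unusedSectionVars false
set_option linter.style.haveILetI false

noncomputable section

namespace Fermat.Agent.S59lib.R7b.ALD

open UpperHalfPlane ModularFormClass CongruenceSubgroup ModularForm Matrix Matrix.SpecialLinearGroup
open Fermat.Agent.Helper8
open scoped MatrixGroups ModularForm

/-! ### the coefficient recursion -/

/-- a `ψ`-eigenvector with `a₁ = 0` vanishes off `D` -/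
theorem qCoeff_eq_zero_of_eig {D : Finset ℕ} {ψ : ℕ → ℂ} {L : ℕ} [NeZero L]
    (hDL : ∀ q : ℕ, q.Prime → q ∣ L → q ∈ D) (F : CuspForm (Gamma0 L) 2)
    (hF : ∀ ℓ : ℕ, ℓ.Prime → ℓ ∉ D → heckeT 2 ℓ ⇑F = ψ ℓ • ⇑F) (h1 : qCoeff ⇑F 1 = 0) :
    ∀ n : ℕ, (∀ q ∈ D, ¬ q ∣ n) → qCoeff ⇑F n = 0 := by
  intro n
  induction n using Nat.strong_induction_on with
  | _ n ih =>
    intro hn
    rcases Nat.lt_or_ge n 2 with hlt | hge
    · interval_cases n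
      · exact qCoeff_cusp_zero F
      · exact h1
    · -- a prime factor `ℓ` of `n`
      have hn1 : n ≠ 1 := by omega
      set ℓ := n.minFac with hℓdef
      have hℓ : ℓ.Prime := Nat.minFac_prime hn1
      have hℓn : ℓ ∣ n := Nat.minFac_dvd n
      have hℓD : ℓ ∉ D := fun h => hn ℓ h hℓn
      have hℓL : ¬ ℓ ∣ L := fun h => hℓD (hDL ℓ hℓ h)
      obtain ⟨m, hm⟩ := hℓn
      have hm0 : 0 < m := by
        rcases Nat.eq_zero_or_pos m with h | h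
        · rw [h, mul_zero] at hm; omega
        · exact h
      have hmn : m < n := by
        rw [hm]
        exact lt_mul_of_one_lt_left hm0 hℓ.one_lt
      have hmD : ∀ q ∈ D, ¬ q ∣ m := fun q hq h => hn q hq (hm ▸ Dvd.dvd.mul_left h ℓ)
      -- the `m`-th coefficient of `T_ℓ F = ψ ℓ • F`
      have h2 : qCoeff (heckeT 2 ℓ ⇑F) m = coeffHeckeT 2 ℓ (qCoeff ⇑F) m :=
        ModularFormClass.qCoeff_heckeT F (one_mem_strictPeriods L) hℓ.ne_zero m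
      have h3 : qCoeff (ψ ℓ • ⇑F) m = ψ ℓ * qCoeff ⇑F m := qCoeff_smul (ψ ℓ) F m
      rw [hF ℓ hℓ hℓD, h3, coeffHeckeT_apply, ih m hmn hmD, mul_zero] at h2
      have h4 : qCoeff ⇑F (m * ℓ) = qCoeff ⇑F n := by rw [hm, mul_comm]
      rw [h4] at h2
      by_cases hℓm : ℓ ∣ m
      · have hlt : m / ℓ < n := lt_of_le_of_lt (Nat.div_le_self m ℓ) hmn
        have hD' : ∀ q ∈ D, ¬ q ∣ m / ℓ := fun q hq h =>
          hmD q hq (dvd_trans h (Nat.div_dvd_of_dvd hℓm))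
        rw [if_pos hℓm, ih (m / ℓ) hlt hD', mul_zero, add_zero] at h2
        exact h2.symm
      · rw [if_neg hℓm, add_zero] at h2
        exact h2.symm

/-! ### the `ψ`-part of the old space -/

/-- `Σ_{r ∈ D, r ∣ L} (eigD D ψ (L/r) + V_r eigD D ψ (L/r))` -/
def oldEig (D : Finset ℕ) (ψ : ℕ → ℂ) (L : ℕ) : Submodule ℂ (ℍ → ℂ) :=
  ⨆ r ∈ D.filter (fun r => r ∣ L), (eigD D ψ (L / r) ⊔ (eigD D ψ (L / r)).map (vF r))

theorem eigD_le_oldEig {D : Finset ℕ} {ψ : ℕ → ℂ} {r L : ℕ} (hr : r ∈ D) (hrL : r ∣ L) :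
    eigD D ψ (L / r) ≤ oldEig D ψ L :=
  le_trans le_sup_left (le_iSup₂_of_le (f := fun r _ => eigD D ψ (L / r) ⊔ (eigD D ψ (L / r)).map (vF r))
    r (Finset.mem_filter.mpr ⟨hr, hrL⟩) le_rfl)

theorem map_vF_eigD_le_oldEig {D : Finset ℕ} {ψ : ℕ → ℂ} {r L : ℕ} (hr : r ∈ D) (hrL : r ∣ L) :
    (eigD D ψ (L / r)).map (vF r) ≤ oldEig D ψ L :=
  le_trans le_sup_right (le_iSup₂_of_le (f := fun r _ => eigD D ψ (L / r) ⊔ (eigD D ψ (L / r)).map (vF r))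
    r (Finset.mem_filter.mpr ⟨hr, hrL⟩) le_rfl)

/-- the two families of subspaces whose sum is `oldSub D L` -/
def oldFam (L : ℕ) : ℕ × Bool → Submodule ℂ (ℍ → ℂ) := fun k =>
  match k.2 with
  | false => cf (L / k.1)
  | true => (cf (L / k.1)).map (vF k.1)

theorem oldSub_le_iSup_oldFam (D : Finset ℕ) (L : ℕ) :
    oldSub D L ≤ ⨆ k ∈ (D.filter (fun r => r ∣ L)) ×ˢ (Finset.univ : Finset Bool), oldFam L k := by
  refine iSup₂_le fun r hr => ?_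
  refine sup_le ?_ ?_
  · exact le_iSup₂_of_le (f := fun k _ => oldFam L k) (r, false)
      (Finset.mem_product.mpr ⟨hr, Finset.mem_univ _⟩) le_rfl
  · exact le_iSup₂_of_le (f := fun k _ => oldFam L k) (r, true)
      (Finset.mem_product.mpr ⟨hr, Finset.mem_univ _⟩) le_rfl

/-- a `ψ`-eigenvector in `V_r (cf M)` is `V_r` of a `ψ`-eigenvector -/
theorem map_vF_cf_inf_eig_le {D : Finset ℕ} {ψ : ℕ → ℂ} {M r : ℕ} [NeZero M]
    (hDM : ∀ q : ℕ, q.Prime → q ∣ M → q ∈ D) (hr : r.Prime) (hrD : r ∈ D) :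
    (cf M).map (vF r) ⊓ eigSub (hTfam D) (resSys D ψ) ≤ (eigD D ψ M).map (vF r) := by
  rintro _ ⟨⟨u, hu, rfl⟩, hψ⟩
  refine Submodule.mem_map_of_mem (mem_eigD.mpr ⟨hu, fun ℓ hℓ hℓD => ?_⟩)
  have hℓr : ℓ ≠ r := fun h => hℓD (h ▸ hrD)
  have hℓM : ¬ ℓ ∣ M := fun h => hℓD (hDM ℓ hℓ h)
  apply vF_injective r
  rw [← heckeT_vF hℓ hr hℓr hℓM hu, map_smul]
  exact hψ ⟨ℓ, hℓ, hℓD⟩

/-- **a `ψ`-eigenvector of level `L` vanishing off `D` is in the `ψ`-part of the old space** -/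
theorem mem_oldEig_of_qCoeff (D : Finset ℕ) (hD : ∀ q ∈ D, q.Prime) (ψ : ℕ → ℂ) (L : ℕ) [NeZero L]
    (hDL : ∀ q : ℕ, q.Prime → q ∣ L → q ∈ D) (F : CuspForm (Gamma0 L) 2)
    (hF : ∀ ℓ : ℕ, ℓ.Prime → ℓ ∉ D → heckeT 2 ℓ ⇑F = ψ ℓ • ⇑F)
    (hW : ∀ m, (∀ q ∈ D, ¬ q ∣ m) → qCoeff ⇑F m = 0) : ⇑F ∈ oldEig D ψ L := by
  classical
  have h1 := oldSub_le_iSup_oldFam D L (coe_mem_oldSub D hD L F hW)
  have hFψ : (⇑F : ℍ → ℂ) ∈ eigSub (hTfam D) (resSys D ψ) := fun i => hF i.1 i.2.1 i.2.2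
  have h2 := mem_iSup_inf_eigSub (hTfam D) (oldFam L)
    ((D.filter (fun r => r ∣ L)) ×ˢ (Finset.univ : Finset Bool)) (resSys D ψ) ?_ h1 hFψ
  · refine (iSup₂_le fun k hk => ?_ : _ ≤ oldEig D ψ L) h2
    obtain ⟨hk1, -⟩ := Finset.mem_product.mp hk
    obtain ⟨hrD, hrL⟩ := Finset.mem_filter.mp hk1
    obtain ⟨r, b⟩ := k
    have hr := hD r hrD
    have hM0 : L / r ≠ 0 := by
      intro h0
      have := Nat.div_mul_cancel hrL
      rw [h0, zero_mul] at this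
      exact NeZero.ne L this.symm
    haveI : NeZero (L / r) := ⟨hM0⟩
    have hDM : ∀ q : ℕ, q.Prime → q ∣ L / r → q ∈ D := fun q hq h =>
      hDL q hq (dvd_trans h (Nat.div_dvd_of_dvd hrL))
    cases b with
    | false => exact eigD_le_oldEig hrD hrL
    | true =>
      exact le_trans (map_vF_cf_inf_eig_le hDM hr hrD) (map_vF_eigD_le_oldEig hrD hrL)
  · rintro ⟨r, b⟩ hk
    obtain ⟨hk1, -⟩ := Finset.mem_product.mp hk
    obtain ⟨hrD, hrL⟩ := Finset.mem_filter.mp hk1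
    have hr := hD r hrD
    have hM0 : L / r ≠ 0 := by
      intro h0
      have := Nat.div_mul_cancel hrL
      rw [h0, zero_mul] at this
      exact NeZero.ne L this.symm
    haveI : NeZero (L / r) := ⟨hM0⟩
    have hDM : ∀ q : ℕ, q.Prime → q ∣ L / r → q ∈ D := fun q hq h =>
      hDL q hq (dvd_trans h (Nat.div_dvd_of_dvd hrL))
    cases b with
    | false => exact cf_le_span_eig D hDM
    | true => exact map_vF_cf_le_span_eig D hDM hr hrD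

/-- a `ψ`-eigenvector with `a₁ = 0` is in the `ψ`-part of the old space -/
theorem mem_oldEig_of_qCoeff_one (D : Finset ℕ) (hD : ∀ q ∈ D, q.Prime) (ψ : ℕ → ℂ) (L : ℕ) [NeZero L]
    (hDL : ∀ q : ℕ, q.Prime → q ∣ L → q ∈ D) {f : ℍ → ℂ} (hf : f ∈ eigD D ψ L)
    (h1 : qCoeff f 1 = 0) : f ∈ oldEig D ψ L := by
  obtain ⟨hf1, hf2⟩ := mem_eigD.mp hf
  obtain ⟨F, rfl⟩ := mem_cf.mp hf1
  exact mem_oldEig_of_qCoeff D hD ψ L hDL F hf2 (qCoeff_eq_zero_of_eig hDL F hf2 h1)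

/-- **(D2′)** -/
theorem smul_sub_smul_mem_oldEig (D : Finset ℕ) (hD : ∀ q ∈ D, q.Prime) (ψ : ℕ → ℂ) (L : ℕ) [NeZero L]
    (hDL : ∀ q : ℕ, q.Prime → q ∣ L → q ∈ D) {f g : ℍ → ℂ} (hf : f ∈ eigD D ψ L)
    (hg : g ∈ eigD D ψ L) : qCoeff g 1 • f - qCoeff f 1 • g ∈ oldEig D ψ L := by
  have hmem : qCoeff g 1 • f - qCoeff f 1 • g ∈ eigD D ψ L :=
    Submodule.sub_mem _ (Submodule.smul_mem _ _ hf) (Submodule.smul_mem _ _ hg)
  refine mem_oldEig_of_qCoeff_one D hD ψ L hDL hmem ?_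
  obtain ⟨F, rfl⟩ := mem_cf.mp (eigD_le_cf D ψ L hf)
  obtain ⟨G, rfl⟩ := mem_cf.mp (eigD_le_cf D ψ L hg)
  have e : (qCoeff ⇑G 1 • (⇑F : ℍ → ℂ) - qCoeff ⇑F 1 • (⇑G : ℍ → ℂ)) =
      ⇑(qCoeff ⇑G 1 • F - qCoeff ⇑F 1 • G) := rfl
  rw [e, qCoeff_sub, qCoeff_smul, qCoeff_smul]
  ring

end Fermat.Agent.S59lib.R7b.ALD
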