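/-
S59lib / R7b / ALD / TwoOld  (helper1)

**(D2″) 2-oldness.**  `D ⊇ primes(L)`, `2 ∈ D`, `4 ∣ L`, `ψ` an anemic system.  If no level `M ∣ L` with `4 ∣ M` is
*minimal* for `ψ` (`IsMinLevel`: `eigD D ψ M ≠ 0` and `eigD D ψ (M/r) = 0` for all primes `r ∣ M`), then
`eigD D ψ L ≤ eigD D ψ (L/2) + V₂ eigD D ψ (L/2)`  (`eigD_le_two_old`).

Ingredients: a minimal level below any level where `ψ` occurs (`exists_isMinLevel`), at a minimal level `a₁ ≠ 0` on
non-zero eigenvectors (`qCoeff_one_ne_zero_of_isMinLevel`, from (D1) through `mem_oldEig_of_qCoeff_one`), and (D2′).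
-/
import Mathlib
import Fermat.Agent.S59lib.R7b.ALD.EigOld

set_option autoImplicit false
set_option linter.unusedSectionVars false
set_option linter.style.haveILetI false

noncomputable section

namespace Fermat.Agent.S59lib.R7b.ALD

open UpperHalfPlane ModularFormClass CongruenceSubgroup ModularForm Matrix Matrix.SpecialLinearGroup
open Fermat.Agent.Helper8
open scoped MatrixGroups ModularForm

/-- `M` is a minimal level for the anemic system `ψ` -/
def IsMinLevel (D : Finset ℕ) (ψ : ℕ → ℂ) (M : ℕ) : Prop :=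
  eigD D ψ M ≠ ⊥ ∧ ∀ r : ℕ, r.Prime → r ∣ M → eigD D ψ (M / r) = ⊥

/-- below any level where `ψ` occurs there is a minimal level -/
theorem exists_isMinLevel (D : Finset ℕ) (ψ : ℕ → ℂ) :
    ∀ M : ℕ, M ≠ 0 → eigD D ψ M ≠ ⊥ → ∃ M₀ : ℕ, M₀ ∣ M ∧ IsMinLevel D ψ M₀ := by
  intro M
  induction M using Nat.strong_induction_on with
  | _ M ih =>
    intro hM0 hM
    by_cases hmin : ∀ r : ℕ, r.Prime → r ∣ M → eigD D ψ (M / r) = ⊥
    · exact ⟨M, dvd_rfl, hM, hmin⟩
    · push Not at hmin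
      obtain ⟨r, hr, hrM, hne⟩ := hmin
      have hlt : M / r < M := Nat.div_lt_self (Nat.pos_of_ne_zero hM0) hr.one_lt
      have h0 : M / r ≠ 0 := by
        intro h0
        have := Nat.div_mul_cancel hrM
        rw [h0, zero_mul] at this
        exact hM0 this.symm
      obtain ⟨M₀, hM₀, hmin₀⟩ := ih (M / r) hlt h0 hne
      exact ⟨M₀, dvd_trans hM₀ (Nat.div_dvd_of_dvd hrM), hmin₀⟩

/-- at a minimal level the old part vanishes -/
theorem oldEig_eq_bot_of_isMinLevel {D : Finset ℕ} (hD : ∀ q ∈ D, q.Prime) {ψ : ℕ → ℂ} {M : ℕ}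
    (hmin : IsMinLevel D ψ M) : oldEig D ψ M = ⊥ := by
  rw [oldEig, eq_bot_iff]
  refine iSup₂_le fun r hr => ?_
  obtain ⟨hrD, hrM⟩ := Finset.mem_filter.mp hr
  rw [hmin.2 r (hD r hrD) hrM, Submodule.map_bot, sup_bot_eq]

/-- at a minimal level, a non-zero `ψ`-eigenvector has `a₁ ≠ 0` -/
theorem qCoeff_one_ne_zero_of_isMinLevel {D : Finset ℕ} (hD : ∀ q ∈ D, q.Prime) {ψ : ℕ → ℂ} {M : ℕ}
    [NeZero M] (hDM : ∀ q : ℕ, q.Prime → q ∣ M → q ∈ D) (hmin : IsMinLevel D ψ M) {g : ℍ → ℂ}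
    (hg : g ∈ eigD D ψ M) (hg0 : g ≠ 0) : qCoeff g 1 ≠ 0 := by
  intro h1
  have h2 := mem_oldEig_of_qCoeff_one D hD ψ M hDM hg h1
  rw [oldEig_eq_bot_of_isMinLevel hD hmin, Submodule.mem_bot] at h2
  exact hg0 h2

/-- `V_r V_s = V_s V_r` -/
theorem vF_comm (r s : ℕ) (f : ℍ → ℂ) : vF r (vF s f) = vF s (vF r f) := by
  rw [vF_apply, vF_apply, vF_apply, vF_apply, ← SlashAction.slash_mul, ← SlashAction.slash_mul]
  congr 1
  rcases eq_or_ne r 0 with rfl | hr
  · rw [heckeDiagMatrix_zero, mul_one, one_mul]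
  rcases eq_or_ne s 0 with rfl | hs
  · rw [heckeDiagMatrix_zero, mul_one, one_mul]
  apply Units.ext
  rw [Units.val_mul, Units.val_mul, val_heckeDiagMatrix hr, val_heckeDiagMatrix hs]
  ext i j
  fin_cases i <;> fin_cases j <;> simp [Matrix.mul_apply, Fin.sum_univ_two, mul_comm]

theorem dvd_half_of_not_four_dvd {M₀ L : ℕ} (h4L : 4 ∣ L) (hM₀ : M₀ ∣ L) (h4 : ¬ 4 ∣ M₀) :
    M₀ ∣ L / 2 := by
  obtain ⟨k, rfl⟩ := h4L
  have e : 4 * k / 2 = 2 * k := by omega
  rw [e]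
  by_cases h2 : 2 ∣ M₀
  · obtain ⟨m, rfl⟩ := h2
    have hm : ¬ 2 ∣ m := by
      rintro ⟨m', rfl⟩
      exact h4 ⟨m', by ring⟩
    have hcop : Nat.Coprime m 2 := ((Nat.Prime.coprime_iff_not_dvd Nat.prime_two).mpr hm).symm
    have h1 : m ∣ 2 * k := by
      have : 2 * m ∣ 2 * (2 * k) := by
        have e2 : 2 * (2 * k) = 4 * k := by ring
        rw [e2]; exact hM₀
      exact (Nat.mul_dvd_mul_iff_left (by norm_num)).mp this
    have h3 : m ∣ k := hcop.dvd_of_dvd_mul_left h1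
    exact Nat.mul_dvd_mul_left 2 h3
  · have hcop : Nat.Coprime M₀ 2 := ((Nat.Prime.coprime_iff_not_dvd Nat.prime_two).mpr h2).symm
    have hcop4 : Nat.Coprime M₀ 4 := by
      have : Nat.Coprime M₀ (2 * 2) := Nat.Coprime.mul_right hcop hcop
      exact this
    exact Dvd.dvd.mul_left (hcop4.dvd_of_dvd_mul_left hM₀) 2

theorem four_dvd_div {L r : ℕ} (h4L : 4 ∣ L) (hr : r.Prime) (hr2 : r ≠ 2) (hrL : r ∣ L) :
    4 ∣ L / r := by
  obtain ⟨m, rfl⟩ := hrL
  rw [Nat.mul_div_cancel_left _ hr.pos]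
  have hcop : Nat.Coprime 2 r := (Nat.coprime_primes Nat.prime_two hr).mpr hr2.symm
  have hcop4 : Nat.Coprime 4 r := by
    have : Nat.Coprime (2 * 2) r := Nat.Coprime.mul_left hcop hcop
    exact this
  exact hcop4.dvd_of_dvd_mul_left h4L

/-- (D2) with explicit hypotheses: if `ψ` occurs at level `L/2` with `a₁ ≠ 0` and the `ψ`-parts of the `r`-old spaces,
`r ≠ 2`, are `2`-old (e.g. zero), then the `ψ`-eigenspace of level `L` is `2`-old. -/
theorem eigD_le_two_old_of_le (D : Finset ℕ) (hD : ∀ q ∈ D, q.Prime) (ψ : ℕ → ℂ) (L : ℕ) [NeZero L]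
    (hDL : ∀ q : ℕ, q.Prime → q ∣ L → q ∈ D) (h2L : 2 ∣ L) {g : ℍ → ℂ} (hg : g ∈ eigD D ψ (L / 2))
    (hg1 : qCoeff g 1 ≠ 0)
    (hr : ∀ r ∈ D, r ∣ L → r ≠ 2 → eigD D ψ (L / r) ⊔ (eigD D ψ (L / r)).map (vF r) ≤
      eigD D ψ (L / 2) ⊔ (eigD D ψ (L / 2)).map (vF 2)) :
    eigD D ψ L ≤ eigD D ψ (L / 2) ⊔ (eigD D ψ (L / 2)).map (vF 2) := by
  have hgL : g ∈ eigD D ψ L := eigD_mono D ψ (Nat.div_dvd_of_dvd h2L) hg
  have hold : oldEig D ψ L ≤ eigD D ψ (L / 2) ⊔ (eigD D ψ (L / 2)).map (vF 2) := by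
    refine iSup₂_le fun r hr' => ?_
    obtain ⟨hrD, hrL⟩ := Finset.mem_filter.mp hr'
    by_cases hr2 : r = 2
    · rw [hr2]
    · exact hr r hrD hrL hr2
  intro f hf
  have h1 := hold (smul_sub_smul_mem_oldEig D hD ψ L hDL hf hgL)
  have h2 : qCoeff g 1 • f ∈ eigD D ψ (L / 2) ⊔ (eigD D ψ (L / 2)).map (vF 2) := by
    have := Submodule.add_mem _ h1 (Submodule.smul_mem _ (qCoeff f 1) (Submodule.mem_sup_left hg))
    rwa [sub_add_cancel] at this
  have h3 := Submodule.smul_mem _ (qCoeff g 1)⁻¹ h2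
  rwa [smul_smul, inv_mul_cancel₀ hg1, one_smul] at h3

/-- **(D2″)**: if no level divisible by `4` is minimal for `ψ`, the `ψ`-eigenspace of level `L` (`4 ∣ L`) is
`2`-old. -/
theorem eigD_le_two_old (D : Finset ℕ) (hD : ∀ q ∈ D, q.Prime) (ψ : ℕ → ℂ) :
    ∀ L : ℕ, L ≠ 0 → (∀ q : ℕ, q.Prime → q ∣ L → q ∈ D) → 4 ∣ L →
      (∀ M : ℕ, M ∣ L → 4 ∣ M → ¬ IsMinLevel D ψ M) →
      eigD D ψ L ≤ eigD D ψ (L / 2) ⊔ (eigD D ψ (L / 2)).map (vF 2) := by
  intro L
  induction L using Nat.strong_induction_on with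
  | _ L ih =>
    intro hL0 hDL h4L hH
    haveI : NeZero L := ⟨hL0⟩
    have h2L : 2 ∣ L := dvd_trans (by norm_num) h4L
    set Tg : Submodule ℂ (ℍ → ℂ) := eigD D ψ (L / 2) ⊔ (eigD D ψ (L / 2)).map (vF 2) with hTg
    by_cases hbot : eigD D ψ L = ⊥
    · rw [hbot]; exact bot_le
    -- a minimal level and a normalised vector there
    obtain ⟨M₀, hM₀L, hmin⟩ := exists_isMinLevel D ψ L hL0 hbot
    have hM₀0 : M₀ ≠ 0 := fun h => hL0 (by rw [h] at hM₀L; exact Nat.eq_zero_of_zero_dvd hM₀L)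
    haveI : NeZero M₀ := ⟨hM₀0⟩
    have hDM₀ : ∀ q : ℕ, q.Prime → q ∣ M₀ → q ∈ D := fun q hq h => hDL q hq (dvd_trans h hM₀L)
    obtain ⟨g, hg, hg0⟩ := Submodule.exists_mem_ne_zero_of_ne_bot hmin.1
    have ha := qCoeff_one_ne_zero_of_isMinLevel hD hDM₀ hmin hg hg0
    have h4M₀ : ¬ 4 ∣ M₀ := fun h => hH M₀ hM₀L h hmin
    have hM₀half : M₀ ∣ L / 2 := dvd_half_of_not_four_dvd h4L hM₀L h4M₀
    have hgT : g ∈ Tg := Submodule.mem_sup_left (eigD_mono D ψ hM₀half hg)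
    have hgL : g ∈ eigD D ψ L := eigD_mono D ψ hM₀L hg
    -- the `ψ`-part of the old space is `2`-old
    have hold : oldEig D ψ L ≤ Tg := by
      refine iSup₂_le fun r hr => ?_
      obtain ⟨hrD, hrL⟩ := Finset.mem_filter.mp hr
      have hrp := hD r hrD
      by_cases hr2 : r = 2
      · rw [hr2]
      -- `r ≠ 2`: induction at level `L / r`
      have hlt : L / r < L := Nat.div_lt_self (Nat.pos_of_ne_zero hL0) hrp.one_lt
      have h0 : L / r ≠ 0 := by
        intro h0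
        have := Nat.div_mul_cancel hrL
        rw [h0, zero_mul] at this
        exact hL0 this.symm
      haveI : NeZero (L / r) := ⟨h0⟩
      have hdvd : L / r ∣ L := Nat.div_dvd_of_dvd hrL
      have h4 : 4 ∣ L / r := four_dvd_div h4L hrp hr2 hrL
      have h2' : 2 ∣ L / r := dvd_trans (by norm_num) h4
      have hIH := ih (L / r) hlt h0 (fun q hq h => hDL q hq (dvd_trans h hdvd)) h4
        (fun M hM h4M => hH M (dvd_trans hM hdvd) h4M)
      -- `L / r / 2` and `L / 2`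
      have e1 : L / r / 2 * r = L / 2 := by
        obtain ⟨m, hm⟩ := h2'
        have hL : L = r * (2 * m) := by rw [← hm, Nat.mul_div_cancel' hrL]
        have e2 : L / r / 2 = m := by rw [hm, Nat.mul_div_cancel_left _ (by norm_num)]
        have e3 : L / 2 = r * m := by
          rw [hL, mul_left_comm, Nat.mul_div_cancel_left _ (by norm_num)]
        rw [e2, e3, mul_comm]
      have hdvd2 : L / r / 2 ∣ L / 2 := Dvd.intro _ e1
      have h0' : L / r / 2 ≠ 0 := by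
        intro h
        rw [h, zero_mul] at e1
        have : L / 2 * 2 = L := Nat.div_mul_cancel h2L
        rw [← e1, zero_mul] at this
        exact hL0 this.symm
      haveI : NeZero (L / r / 2) := ⟨h0'⟩
      have hDM' : ∀ q : ℕ, q.Prime → q ∣ L / r / 2 → q ∈ D := fun q hq h =>
        hDL q hq (dvd_trans h (dvd_trans (Nat.div_dvd_of_dvd h2') hdvd))
      refine sup_le ?_ ?_
      · -- the inclusion part
        refine le_trans hIH (sup_le ?_ ?_)
        · exact le_trans (eigD_mono D ψ hdvd2) le_sup_left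
        · exact le_trans (Submodule.map_mono (eigD_mono D ψ hdvd2)) le_sup_right
      · -- the `V_r` part
        refine le_trans (Submodule.map_mono hIH) ?_
        rw [Submodule.map_sup]
        refine sup_le ?_ ?_
        · rw [Submodule.map_le_iff_le_comap]
          intro u hu
          have := vF_mem_eigD hDM' hrp hrD hu
          rw [e1] at this
          exact Submodule.mem_sup_left this
        · rw [Submodule.map_le_iff_le_comap, Submodule.map_le_iff_le_comap]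
          intro u hu
          show vF r (vF 2 u) ∈ Tg
          rw [vF_comm]
          have := vF_mem_eigD hDM' hrp hrD hu
          rw [e1] at this
          exact Submodule.mem_sup_right (Submodule.mem_map_of_mem this)
    -- conclude
    intro f hf
    have h1 := hold (smul_sub_smul_mem_oldEig D hD ψ L hDL hf hgL)
    have h2 : qCoeff g 1 • f ∈ Tg := by
      have := Submodule.add_mem _ h1 (Submodule.smul_mem _ (qCoeff f 1) hgT)
      rwa [sub_add_cancel] at this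
    have h3 := Submodule.smul_mem _ (qCoeff g 1)⁻¹ h2
    rwa [smul_smul, inv_mul_cancel₀ ha, one_smul] at h3

end Fermat.Agent.S59lib.R7b.ALD
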