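/-
S59lib / R7b / ALD / Newform  (helper1)

**Bridge to the frozen `CuspForm.IsNewform`**: at a minimal level `M` for the anemic system `ψ` (away from `D ⊇
primes(M)`) there is a newform `g` of level `M` (in the frozen sense: normalised eigenform whose good eigensystem
occurs at no proper divisor of `M`) with `a_ℓ(g) = ψ ℓ` for all primes `ℓ ∉ D` (`exists_isNewform_of_isMinLevel`).
Conversely a normalised eigenform gives a point of `eigD` (`coe_mem_eigD_of_isNormalizedEigenform`).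
-/
import Mathlib
import Fermat.Agent.S59lib.R7b.ALD.TwoOld
import Fermat.Agent.S41lib.NEW.Packaging
import Fermat.Agent.S29lib.P.Eigen
import Fermat.Prelude.Def_CuspForm_Newforms

set_option autoImplicit false
set_option linter.unusedSectionVars false
set_option linter.style.haveILetI false

noncomputable section

namespace Fermat.Agent.S59lib.R7b.ALD

open UpperHalfPlane ModularFormClass CongruenceSubgroup ModularForm Matrix Matrix.SpecialLinearGroup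
open Fermat.Agent.Helper8 CuspForm
open scoped MatrixGroups ModularForm

/-- a normalised eigenform of level `M'` whose good coefficients are `ψ` lies in `eigD D ψ M'` -/
theorem coe_mem_eigD_of_isNormalizedEigenform {D : Finset ℕ} {ψ : ℕ → ℂ} {M' : ℕ}
    (hDM' : ∀ q : ℕ, q.Prime → q ∣ M' → q ∈ D) {g : CuspForm (Gamma0 M') 2}
    (hg : g.IsNormalizedEigenform) (hψ : ∀ ℓ : ℕ, ℓ.Prime → ℓ ∉ D → qCoeff ⇑g ℓ = ψ ℓ) :
    (⇑g : ℍ → ℂ) ∈ eigD D ψ M' := by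
  refine mem_eigD.mpr ⟨coe_mem_cf g, fun ℓ hℓ hℓD => ?_⟩
  have hℓM' : ¬ ℓ ∣ M' := fun h => hℓD (hDM' ℓ hℓ h)
  have h1 := Fermat.Agent.S29lib.P.heckeTLin_eq_smul hg hℓ hℓM'
  have h2 := congrArg (fun G : CuspForm (Gamma0 M') 2 => (⇑G : ℍ → ℂ)) h1
  rw [← hψ ℓ hℓ hℓD]
  exact h2

/-- **a minimal level carries a newform** -/
theorem exists_isNewform_of_isMinLevel (D : Finset ℕ) (ψ : ℕ → ℂ) (M : ℕ) [NeZero M]
    (hDM : ∀ q : ℕ, q.Prime → q ∣ M → q ∈ D) (hmin : IsMinLevel D ψ M) :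
    ∃ g : CuspForm (Gamma0 M) 2, g.IsNewform ∧ ∀ ℓ : ℕ, ℓ.Prime → ℓ ∉ D → qCoeff ⇑g ℓ = ψ ℓ := by
  classical
  -- the eigenspace as a subspace of `S₂(M)`
  set X : Submodule ℂ (CuspForm (Gamma0 M) 2) := (eigD D ψ M).comap (coeHom M) with hX
  have hXmem : ∀ F : CuspForm (Gamma0 M) 2, F ∈ X ↔
      ∀ (ℓ : ℕ) (hℓ : ℓ.Prime) (hℓM : ¬ ℓ ∣ M), ℓ ∉ D → CuspForm.heckeTLin 2 hℓ hℓM F = ψ ℓ • F := by
    intro F
    rw [hX, Submodule.mem_comap]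
    show (⇑F : ℍ → ℂ) ∈ eigD D ψ M ↔ _
    rw [mem_eigD]
    constructor
    · rintro ⟨-, h⟩ ℓ hℓ hℓM hℓD
      exact DFunLike.coe_injective (h ℓ hℓ hℓD)
    · intro h
      refine ⟨coe_mem_cf F, fun ℓ hℓ hℓD => ?_⟩
      have hℓM : ¬ ℓ ∣ M := fun h' => hℓD (hDM ℓ hℓ h')
      exact congrArg (fun G : CuspForm (Gamma0 M) 2 => (⇑G : ℍ → ℂ)) (h ℓ hℓ hℓM hℓD)
  have hXne : X ≠ ⊥ := by
    obtain ⟨g, hg, hg0⟩ := Submodule.exists_mem_ne_zero_of_ne_bot hmin.1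
    obtain ⟨G, rfl⟩ := mem_cf.mp (eigD_le_cf D ψ M hg)
    intro hbot
    have hG : G ∈ X := hg
    rw [hbot, Submodule.mem_bot] at hG
    exact hg0 (by rw [hG]; rfl)
  have hstab : ∀ t : HeckeT M, ∀ v ∈ X, (t : Module.End ℂ (CuspForm (Gamma0 M) 2)) v ∈ X := by
    intro t v hv
    rw [hXmem] at hv ⊢
    intro ℓ hℓ hℓM hℓD
    have hc : heckeAlgebra.T hℓ hℓM (Set.notMem_empty ℓ) * t =
        t * heckeAlgebra.T hℓ hℓM (Set.notMem_empty ℓ) := mul_comm _ _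
    have hc' := congrArg (fun s : HeckeT M =>
      (s : Module.End ℂ (CuspForm (Gamma0 M) 2)) v) hc
    have hc'' : CuspForm.heckeTLin 2 hℓ hℓM ((t : Module.End ℂ (CuspForm (Gamma0 M) 2)) v) =
        (t : Module.End ℂ (CuspForm (Gamma0 M) 2)) (CuspForm.heckeTLin 2 hℓ hℓM v) := hc'
    rw [hc'', hv ℓ hℓ hℓM hℓD, map_smul]
  obtain ⟨G₁, χ, hG₁X, hG₁0, hχ⟩ := Fermat.Agent.S41lib.NEW.exists_eigenvector_of_stable X hXne hstab
  obtain ⟨g', hg', hval⟩ := Fermat.Agent.S41lib.NEW.exists_normalizedEigenform_full hG₁0 χ hχ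
  -- the good coefficients of `g'`
  have hψ : ∀ ℓ : ℕ, ℓ.Prime → ℓ ∉ D → qCoeff ⇑g' ℓ = ψ ℓ := by
    intro ℓ hℓ hℓD
    have hℓM : ¬ ℓ ∣ M := fun h' => hℓD (hDM ℓ hℓ h')
    rw [hval ℓ hℓ, eigenvalueFn, dif_pos hℓ, dif_neg hℓM]
    have h1 := hχ (heckeAlgebra.T hℓ hℓM (Set.notMem_empty ℓ))
    have h2 : CuspForm.heckeTLin 2 hℓ hℓM G₁ = ψ ℓ • G₁ := (hXmem G₁).mp hG₁X ℓ hℓ hℓM hℓD
    have h3 : χ (heckeAlgebra.T hℓ hℓM (Set.notMem_empty ℓ)) • G₁ = ψ ℓ • G₁ := by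
      rw [← h1]; exact h2
    have h4 : (χ (heckeAlgebra.T hℓ hℓM (Set.notMem_empty ℓ)) - ψ ℓ) • G₁ = 0 := by
      rw [sub_smul, h3, sub_self]
    exact sub_eq_zero.mp ((smul_eq_zero.mp h4).resolve_right hG₁0)
  refine ⟨g', ⟨hg', ?_⟩, hψ⟩
  -- newness
  rintro M' hM'M hM'ne ⟨g'', hg'', hcoef⟩
  obtain ⟨k, hk⟩ := hM'M
  have hk1 : k ≠ 1 := fun h => hM'ne (by rw [hk, h, mul_one])
  set r := k.minFac with hr
  have hrp : r.Prime := Nat.minFac_prime hk1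
  obtain ⟨k', hk'⟩ := Nat.minFac_dvd k
  have hrM : r ∣ M := ⟨M' * k', by rw [hk, hk']; ring⟩
  have hM'div : M' ∣ M / r := by
    refine ⟨k', ?_⟩
    rw [hk, hk', ← hr]
    have : M' * (r * k') = r * (M' * k') := by ring
    rw [this, Nat.mul_div_cancel_left _ hrp.pos]
  have hDM' : ∀ q : ℕ, q.Prime → q ∣ M' → q ∈ D := fun q hq h => hDM q hq (dvd_trans h ⟨k, hk⟩)
  have hmem : (⇑g'' : ℍ → ℂ) ∈ eigD D ψ M' := by
    refine coe_mem_eigD_of_isNormalizedEigenform hDM' hg'' fun ℓ hℓ hℓD => ?_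
    have hℓM : ¬ ℓ ∣ M := fun h' => hℓD (hDM ℓ hℓ h')
    rw [hcoef ℓ hℓ hℓM, hψ ℓ hℓ hℓD]
  have h0 := eigD_mono D ψ hM'div hmem
  rw [hmin.2 r hrp hrM, Submodule.mem_bot] at h0
  exact hg''.ne_zero (DFunLike.coe_injective h0)

end Fermat.Agent.S59lib.R7b.ALD
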