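/-
S59lib / R7b / ALD / Unip  (helper1)

**Block U of R7b: the `2`-oldness bound for a point which is unipotent at `2`.**

`H` a `HeckeGaloisRepDatum` of level `4 N` (`N` odd) over a complete DVR `𝒪` of residue characteristic `3`,
`χ : T →ₐ[𝒪] 𝒪` a point whose Galois representation is unipotent on the inertia groups at `2`
(characteristic polynomials `(X - 1)²` after `χ`), `a ℓ = χ (π T_ℓ)` its system of eigenvalues in `K = Frac 𝒪`.
Then

  `dim_K H_par(Γ₀(4N), K)[a] ≤ 2 dim_K H_par(Γ₀(2N), K)[a]`     (`finrank_le_of_unipotent`).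

Proof: helper4's (D3) `SMO.finrank_eigHKP_two_le` reduces to: no level `M ∣ 4N` with `4 ∣ M` is minimal for `a`.  A minimal
level `M` carries a newform `g` (`SMO.exists_isNewform_of_isMinLevelK`) whose eigenvalues are `σ (a ℓ)` for an embedding
`σ` of a subfield `E₀ ⊆ K`; the eigencharacter of `g` transports to `iota : chig.range →+* 𝒪`
(`exists_iota`); S36 (`S36lib.s36_of_inertiaKill`) gives a representation `ρ₂` attached to `g` which is NOT unipotent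
on inertia at `2` (`4 ∥ M`), but the comparison lemma `S58lib.Cmp.charpoly_map_eq_of_frobenius` against `H.ρ` shows
that it is.  The hypothesis `hres` of S36 comes from `S58lib.Cmp.isAbsolutelyIrreducible_of_charpoly_eq` against
`H.ρ.residual`.
-/
import Mathlib
import Fermat.Agent.S59lib.SMO.D3
import Fermat.Agent.S36lib.S36Of
import Fermat.Agent.S36lib.J.Close
import Fermat.Agent.S58lib.Mod.EigenData
import Fermat.Agent.S58lib.Cmp.Hres
import Fermat.Agent.TeamA.Burnside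
import Fermat.Prelude.Def_CuspForm_HeckeGaloisRepDatum

set_option autoImplicit false
set_option linter.unusedSectionVars false
set_option linter.unusedVariables false
set_option linter.style.haveILetI false

noncomputable section

namespace Fermat.Agent.S59lib.R7b.ALD

open Polynomial IsLocalRing Module

/-- `ℚ̄` -/
local notation "Qb" => AlgebraicClosure ℚ
/-- `G_ℚ` -/
local notation "GQ" => (AlgebraicClosure ℚ ≃ₐ[ℚ] AlgebraicClosure ℚ)

/-! ### generalities -/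

/-- an augmentation of a local algebra over a local ring is a local homomorphism -/
theorem isLocalHom_algHom_aug {𝒪 T : Type*} [CommRing 𝒪] [IsLocalRing 𝒪] [CommRing T] [IsLocalRing T]
    [Algebra 𝒪 T] (χ : T →ₐ[𝒪] 𝒪) : IsLocalHom (χ : T →+* 𝒪) := by
  constructor
  intro t ht
  by_contra hnu
  have h1 : t ∈ maximalIdeal T := hnu
  have h2 : t - algebraMap 𝒪 T (χ t) ∈ maximalIdeal T := by
    apply IsLocalRing.le_maximalIdeal (RingHom.ker_ne_top (χ : T →+* 𝒪))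
    rw [RingHom.mem_ker, map_sub]
    show χ t - χ (algebraMap 𝒪 T (χ t)) = 0
    rw [AlgHom.commutes, Algebra.algebraMap_self_apply, sub_self]
  have h3 : algebraMap 𝒪 T (χ t) ∈ maximalIdeal T := by
    have := Ideal.sub_mem _ h1 h2
    simpa using this
  exact h3 (ht.map (algebraMap 𝒪 T))

/-- an absolutely irreducible residual representation is irreducible -/
theorem isIrreducible_of_isAbsolutelyIrreducible {k : Type} [Field k] (ρ : ResidualGaloisRep k)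
    (h : ρ.IsAbsolutelyIrreducible) : ρ.IsIrreducible := by
  classical
  have hB := Fermat.Agent.TeamA.Burnside.span_range_eq_top ρ h
  intro W hW
  -- `W` is stable under every endomorphism
  have hall : ∀ f : Module.End k ρ.V, ∀ x ∈ W, f x ∈ W := by
    intro f
    have hf : f ∈ Submodule.span k (Set.range ρ.ρ) := by rw [hB]; exact Submodule.mem_top
    induction hf using Submodule.span_induction with
    | mem f hf =>
      obtain ⟨σ, rfl⟩ := hf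
      exact hW σ
    | zero => intro x _; exact W.zero_mem
    | add f g _ _ hf hg => intro x hx; exact W.add_mem (hf x hx) (hg x hx)
    | smul c f _ hf => intro x hx; exact W.smul_mem c (hf x hx)
  by_cases hbot : W = ⊥
  · exact Or.inl hbot
  right
  obtain ⟨w, hw, hw0⟩ := Submodule.exists_mem_ne_zero_of_ne_bot hbot
  have hker : LinearMap.ker (LinearMap.toSpanSingleton k ρ.V w) = ⊥ :=
    LinearMap.ker_toSpanSingleton k hw0
  obtain ⟨g, hg⟩ := LinearMap.exists_leftInverse_of_injective _ hker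
  refine (Submodule.eq_top_iff').mpr fun v => ?_
  have h1 := hall ((LinearMap.toSpanSingleton k ρ.V v).comp g) w hw
  have h2 : g w = 1 := by
    have := LinearMap.congr_fun hg (1 : k)
    simpa using this
  simpa [h2] using h1

/-! ### transport of the eigencharacter -/

section Iota

variable {B : Type*} [CommRing B] {K : Type*} [Field K] [CharZero K] {𝒪 : Type*} [CommRing 𝒪] [Algebra 𝒪 K]

/-- **transport of a complex character to `𝒪`** along a partial embedding `σ : E₀ → ℂ` of a subfield `E₀ ⊆ K`: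
if every value `chig t` is `σ x` for some `x ∈ E₀` lying in (the image of) `𝒪`, then `chig.range` maps to `𝒪`. -/
theorem exists_iota (hinj : Function.Injective (algebraMap 𝒪 K)) (chig : B →+* ℂ)
    (E₀ : IntermediateField ℚ K) (σ : ↥E₀ →+* ℂ)
    (hmem : ∀ t : B, ∃ x : ↥E₀, (x : K) ∈ (algebraMap 𝒪 K).range ∧ σ x = chig t) :
    ∃ iota : chig.range →+* 𝒪, ∀ (t : B) (x : ↥E₀) (y : 𝒪), (x : K) = algebraMap 𝒪 K y → σ x = chig t →
      iota (chig.rangeRestrict t) = y := by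
  classical
  have key : ∀ z : chig.range, ∃ y : 𝒪, ∃ x : ↥E₀, (x : K) = algebraMap 𝒪 K y ∧ σ x = (z : ℂ) := by
    rintro ⟨z, t, rfl⟩
    obtain ⟨x, ⟨y, hy⟩, hx⟩ := hmem t
    exact ⟨y, x, hy.symm, hx⟩
  have huniq : ∀ (z : ℂ) (y y' : 𝒪) (x x' : ↥E₀), (x : K) = algebraMap 𝒪 K y → σ x = z →
      (x' : K) = algebraMap 𝒪 K y' → σ x' = z → y = y' := by
    intro z y y' x x' h1 h2 h3 h4
    have hxx : x = x' := σ.injective (h2.trans h4.symm)
    subst hxx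
    exact hinj (h1.symm.trans h3)
  let F : chig.range → 𝒪 := fun z => Classical.choose (key z)
  have hF : ∀ (z : chig.range) (y : 𝒪) (x : ↥E₀), (x : K) = algebraMap 𝒪 K y → σ x = (z : ℂ) → F z = y := by
    intro z y x h1 h2
    obtain ⟨x', h3, h4⟩ := Classical.choose_spec (key z)
    exact huniq z _ _ x' x h3 h4 h1 h2
  have hF' : ∀ z : chig.range, ∃ x : ↥E₀, (x : K) = algebraMap 𝒪 K (F z) ∧ σ x = (z : ℂ) :=
    fun z => Classical.choose_spec (key z)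
  refine ⟨{ toFun := F, map_one' := ?_, map_mul' := ?_, map_zero' := ?_, map_add' := ?_ }, ?_⟩
  · exact hF 1 1 1 (by simp) (by simp)
  · intro z z'
    obtain ⟨x, h1, h2⟩ := hF' z
    obtain ⟨x', h3, h4⟩ := hF' z'
    refine hF (z * z') _ (x * x') ?_ ?_
    · rw [map_mul, ← h1, ← h3]; rfl
    · rw [map_mul, h2, h4]; rfl
  · exact hF 0 0 0 (by simp) (by simp)
  · intro z z'
    obtain ⟨x, h1, h2⟩ := hF' z
    obtain ⟨x', h3, h4⟩ := hF' z'
    refine hF (z + z') _ (x + x') ?_ ?_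
    · rw [map_add, ← h1, ← h3]; rfl
    · rw [map_add, h2, h4]; rfl
  · intro t x y h1 h2
    exact hF _ y x h1 (by rw [h2]; rfl)

end Iota

/-- the values of a character of the Hecke algebra away from `S` (`S ⊇` primes of the level) lie in any subring
containing the values at the `T_ℓ` -/
theorem exists_mem_of_heckeT {K : Type*} [Field K] [CharZero K] {M : ℕ} [NeZero M] (S : Finset ℕ)
    (hMS : ∀ q : ℕ, q.Prime → q ∣ M → q ∈ S)
    (chig : CuspForm.heckeAlgebra M 2 (↑S : Set ℕ) →+* ℂ) (E₀ : IntermediateField ℚ K) (σ : ↥E₀ →+* ℂ)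
    (R : Subring K)
    (hgen : ∀ (ℓ : ℕ) (hℓ : ℓ.Prime) (hℓM : ¬ ℓ ∣ M) (hℓS : ℓ ∉ (↑S : Set ℕ)),
      ∃ x : ↥E₀, (x : K) ∈ R ∧ σ x = chig (CuspForm.heckeAlgebra.T hℓ hℓM hℓS)) :
    ∀ t : CuspForm.heckeAlgebra M 2 (↑S : Set ℕ), ∃ x : ↥E₀, (x : K) ∈ R ∧ σ x = chig t := by
  rintro ⟨t, ht⟩
  induction ht using Algebra.adjoin_induction with
  | mem t ht =>
    rcases ht with ⟨ℓ, hℓ, hℓM, hℓS, rfl⟩ | ⟨q, hqM, hq, hqS, rfl⟩
    · exact hgen ℓ hℓ hℓM hℓS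
    · exact absurd (Finset.mem_coe.mpr (hMS q hq hqM)) hqS
  | algebraMap r =>
    refine ⟨(r : ↥E₀), by simp, ?_⟩
    have h1 : (⟨algebraMap ℤ _ r, Subalgebra.algebraMap_mem _ r⟩ : CuspForm.heckeAlgebra M 2 (↑S : Set ℕ)) =
        algebraMap ℤ (CuspForm.heckeAlgebra M 2 (↑S : Set ℕ)) r := rfl
    rw [h1, eq_intCast, map_intCast, map_intCast]
  | add t t' ht ht' h h' =>
    obtain ⟨x, hx1, hx2⟩ := h
    obtain ⟨x', hx1', hx2'⟩ := h'
    refine ⟨x + x', ?_, ?_⟩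
    · push_cast
      exact R.add_mem hx1 hx1'
    · have h1 : (⟨t + t', add_mem ht ht'⟩ : CuspForm.heckeAlgebra M 2 (↑S : Set ℕ)) = ⟨t, ht⟩ + ⟨t', ht'⟩ := rfl
      rw [h1, map_add, map_add, hx2, hx2']
  | mul t t' ht ht' h h' =>
    obtain ⟨x, hx1, hx2⟩ := h
    obtain ⟨x', hx1', hx2'⟩ := h'
    refine ⟨x * x', ?_, ?_⟩
    · push_cast
      exact R.mul_mem hx1 hx1'
    · have h1 : (⟨t * t', mul_mem ht ht'⟩ : CuspForm.heckeAlgebra M 2 (↑S : Set ℕ)) = ⟨t, ht⟩ * ⟨t', ht'⟩ := rfl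
      rw [h1, map_mul, map_mul, hx2, hx2']

/-! ### comparison with the representation of the Hecke ring -/

section Main

variable {𝒪 : Type} [CommRing 𝒪] [IsDomain 𝒪] [IsDiscreteValuationRing 𝒪]
  [IsAdicComplete (maximalIdeal 𝒪) 𝒪]
  {L : ℕ} [NeZero L] {S : Finset ℕ}
  {θ : CuspForm.heckeAlgebra L 2 (↑S : Set ℕ) →+* ResidueField 𝒪}
  {T : Type} [CommRing T] [IsLocalRing T] [IsNoetherianRing T]
  [IsAdicComplete (maximalIdeal T) T] [Algebra 𝒪 T] [IsLocalHom (algebraMap 𝒪 T)]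
  [Module.Finite 𝒪 T] [Module.Free 𝒪 T]

/-- a representation over `O''` with the Frobenius characteristic polynomials of the point `χ` has ALL its
characteristic polynomials equal to the images of those of `H.ρ` -/
theorem charpoly_eq_map_of_frob (hLS : ∀ q : ℕ, q.Prime → q ∣ L → q ∈ S)
    (H : CuspForm.HeckeGaloisRepDatum L (↑S : Set ℕ) 𝒪 θ T) (χ : T →ₐ[𝒪] 𝒪)
    {O'' : Type} [CommRing O''] [IsLocalRing O''] [IsHausdorff (maximalIdeal O'') O''] [Algebra 𝒪 O'']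
    [IsLocalHom (algebraMap 𝒪 O'')] (ρ : GaloisRepAdic O'')
    (hρ : ∀ (ℓ : ℕ) (hℓ : ℓ.Prime) (hℓL : ¬ ℓ ∣ L) (hℓS : ℓ ∉ (↑S : Set ℕ)),
      ∀ A : ValuationSubring Qb, A.LiesOverPrime ℓ → ∀ φ : GQ, A.IsFrobeniusAt φ ℓ →
        LinearMap.charpoly (ρ.ρ φ) =
          X ^ 2 - C (algebraMap 𝒪 O'' (χ (H.π (CuspForm.heckeAlgebra.T hℓ hℓL hℓS)))) * X + C ((ℓ : O'')))
    (σ : GQ) :
    LinearMap.charpoly (ρ.ρ σ) =
      (LinearMap.charpoly (H.ρ.ρ σ)).map ((algebraMap 𝒪 O'').comp (χ : T →+* 𝒪)) := by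
  haveI := isLocalHom_algHom_aug χ
  haveI : IsLocalHom ((algebraMap 𝒪 O'').comp (χ : T →+* 𝒪)) := RingHom.isLocalHom_comp _ _
  refine Fermat.Agent.S58lib.Cmp.charpoly_map_eq_of_frobenius _
    (Fermat.Agent.S58lib.Cmp.map_mem_maximalIdeal_of_isLocalHom _) H.ρ ρ S ?_ σ
  intro ℓ hℓ hℓS A hA φ hφ
  have hℓS' : ℓ ∉ (↑S : Set ℕ) := fun h => hℓS (Finset.mem_coe.mp h)
  have hℓL : ¬ ℓ ∣ L := fun h => hℓS (hLS ℓ hℓ h)
  rw [hρ ℓ hℓ hℓL hℓS' A hA φ hφ, H.charpoly_frob ℓ hℓ hℓL hℓS' A hA φ hφ, Polynomial.map_add,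
    Polynomial.map_sub, Polynomial.map_mul, Polynomial.map_pow, Polynomial.map_X, Polynomial.map_C,
    Polynomial.map_C, map_natCast ((algebraMap 𝒪 O'').comp (χ : T →+* 𝒪))]
  rfl

/-- **`hres`**: a representation over `O''` with the Frobenius characteristic polynomials of the point `χ` is
residually absolutely irreducible (residue characteristic `3`) -/
theorem residual_absIrr_of_frob (h3 : (3 : 𝒪) ∈ maximalIdeal 𝒪) (hLS : ∀ q : ℕ, q.Prime → q ∣ L → q ∈ S)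
    (H : CuspForm.HeckeGaloisRepDatum L (↑S : Set ℕ) 𝒪 θ T) (χ : T →ₐ[𝒪] 𝒪)
    {O'' : Type} [CommRing O''] [IsLocalRing O''] [IsHausdorff (maximalIdeal O'') O''] [Algebra 𝒪 O'']
    [IsLocalHom (algebraMap 𝒪 O'')] (ρ : GaloisRepAdic O'')
    (hρ : ∀ (ℓ : ℕ) (hℓ : ℓ.Prime) (hℓL : ¬ ℓ ∣ L) (hℓS : ℓ ∉ (↑S : Set ℕ)),
      ∀ A : ValuationSubring Qb, A.LiesOverPrime ℓ → ∀ φ : GQ, A.IsFrobeniusAt φ ℓ →
        LinearMap.charpoly (ρ.ρ φ) =
          X ^ 2 - C (algebraMap 𝒪 O'' (χ (H.π (CuspForm.heckeAlgebra.T hℓ hℓL hℓS)))) * X + C ((ℓ : O''))) :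
    ρ.residual.IsAbsolutelyIrreducible := by
  classical
  haveI : Fact (Nat.Prime 3) := ⟨Nat.prime_three⟩
  haveI := isLocalHom_algHom_aug χ
  let ι : T →+* O'' := (algebraMap 𝒪 O'').comp (χ : T →+* 𝒪)
  haveI : IsLocalHom ι := RingHom.isLocalHom_comp _ _
  have hcp := charpoly_eq_map_of_frob hLS H χ ρ hρ
  let ιr : ResidueField T →+* ResidueField O'' := ResidueField.map ι
  have h3T : ((3 : ℕ) : T) ∈ maximalIdeal T := by
    have h1 : ((3 : ℕ) : T) = algebraMap 𝒪 T (3 : 𝒪) := by rw [map_ofNat, Nat.cast_ofNat]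
    rw [h1]
    exact map_nonunit (algebraMap 𝒪 T) _ h3
  have h2 : (2 : ResidueField T) ≠ 0 := by
    intro h20
    have h30 : (3 : ResidueField T) = 0 := by
      have h1 : (3 : ResidueField T) = residue T ((3 : ℕ) : T) := by rw [map_natCast, Nat.cast_ofNat]
      rw [h1]
      exact (residue_eq_zero_iff _).mpr h3T
    have h1 : (1 : ResidueField T) = 3 - 2 := by norm_num
    rw [h30, h20, sub_zero] at h1
    exact one_ne_zero h1
  have hdetT : LinearMap.det (H.ρ.ρ complexConjugation) = -1 :=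
    Fermat.Agent.S58lib.Cmp.det_complexConjugation 3 h3T H.ρ S
      (fun ℓ hℓ hℓS A hA φ hφ => ⟨_, H.charpoly_frob ℓ hℓ (fun h => hℓS (hLS ℓ hℓ h))
        (fun h => hℓS (Finset.mem_coe.mp h)) A hA φ hφ⟩)
  have hdet : LinearMap.det (H.ρ.residual.ρ complexConjugation) = -1 := by
    show LinearMap.det ((H.ρ.ρ complexConjugation).baseChange (ResidueField T)) = -1
    rw [LinearMap.det_baseChange, hdetT, map_neg, map_one]
  refine Fermat.Agent.S58lib.Cmp.isAbsolutelyIrreducible_of_charpoly_eq ιr h2 H.ρ.residual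
    (isIrreducible_of_isAbsolutelyIrreducible _ H.residual_absIrr) complexConjugation
    complexConjugation_mul_self hdet ρ.residual ?_
  intro σ
  show LinearMap.charpoly ((ρ.ρ σ).baseChange (ResidueField O'')) =
    (LinearMap.charpoly ((H.ρ.ρ σ).baseChange (ResidueField T))).map ιr
  rw [LinearMap.charpoly_baseChange, LinearMap.charpoly_baseChange, hcp σ, Polynomial.map_map,
    Polynomial.map_map]
  rfl

end Main

/-! ### Block U -/

/-- **Block U.**  For the system of eigenvalues `a` of a point `χ` of the Hecke ring of level `4 N` (`N` odd, residue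
characteristic `3`) whose Galois representation is unipotent on the inertia groups at `2`:
`dim H_par(Γ₀(4N), K)[a] ≤ 2 dim H_par(Γ₀(2N), K)[a]`. -/
theorem finrank_le_of_unipotent {𝒪 : Type} [CommRing 𝒪] [IsDomain 𝒪] [IsDiscreteValuationRing 𝒪]
    [IsAdicComplete (maximalIdeal 𝒪) 𝒪] [CharZero 𝒪] [Finite (ResidueField 𝒪)]
    (h3 : (3 : 𝒪) ∈ maximalIdeal 𝒪) {N : ℕ} [NeZero N] (hN : Odd N) (S : Finset ℕ) (h3S : 3 ∈ S)
    (hNS : ∀ q : ℕ, q.Prime → q ∣ N * 2 * 2 → q ∈ S)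
    {θ : CuspForm.heckeAlgebra (N * 2 * 2) 2 (↑S : Set ℕ) →+* ResidueField 𝒪}
    {T : Type} [CommRing T] [IsLocalRing T] [IsNoetherianRing T]
    [IsAdicComplete (maximalIdeal T) T] [Algebra 𝒪 T] [IsLocalHom (algebraMap 𝒪 T)]
    [Module.Finite 𝒪 T] [Module.Free 𝒪 T]
    (H : CuspForm.HeckeGaloisRepDatum (N * 2 * 2) (↑S : Set ℕ) 𝒪 θ T) (χ : T →ₐ[𝒪] 𝒪)
    (hirr : H.ρ.residual.IsAbsolutelyIrreducible)
    (hunip : ∀ P : ValuationSubring Qb, P.LiesOverPrime 2 → ∀ σ ∈ P.inertiaSubgroupIn ℚ,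
      (LinearMap.charpoly (H.ρ.ρ σ)).map (χ : T →+* 𝒪) = (X - 1) ^ 2)
    (K : Type*) [Field K] [Algebra 𝒪 K] [IsFractionRing 𝒪 K] (a : ℕ → K)
    (ha : ∀ (ℓ : ℕ) (hℓ : ℓ.Prime) (hℓN : ¬ ℓ ∣ N * 2 * 2) (hℓS : ℓ ∉ (↑S : Set ℕ)),
      a ℓ = algebraMap 𝒪 K (χ (H.π (CuspForm.heckeAlgebra.T hℓ hℓN hℓS)))) :
    finrank K ↥(SMO.eigHKP (N * 2 * 2) K (fun ℓ => ℓ ∈ S) a) ≤
      2 * finrank K ↥(SMO.eigHKP (N * 2) K (fun ℓ => ℓ ∈ S) a) := by
  classical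
  haveI : Fact (Nat.Prime 3) := ⟨Nat.prime_three⟩
  have hinjK : Function.Injective (algebraMap 𝒪 K) := IsFractionRing.injective 𝒪 K
  haveI : CharZero K := charZero_of_injective_algebraMap hinjK
  -- reduction to a set of primes
  let D : Finset ℕ := S.filter Nat.Prime
  have hDS : ∀ ℓ : ℕ, ℓ.Prime → (ℓ ∈ D ↔ ℓ ∈ S) := fun ℓ hℓ => by simp [D, hℓ]
  have heq : ∀ (L : ℕ) [NeZero L], SMO.eigHKP L K (fun ℓ => ℓ ∈ S) a =
      SMO.eigHKP L K (fun ℓ => ℓ ∈ D) a := by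
    intro L _
    ext φ
    rw [SMO.mem_eigHKP, SMO.mem_eigHKP]
    exact and_congr Iff.rfl ⟨fun h ℓ hℓ hP => h ℓ hℓ (fun hS => hP ((hDS ℓ hℓ).mpr hS)),
      fun h ℓ hℓ hP => h ℓ hℓ (fun hD' => hP ((hDS ℓ hℓ).mp hD'))⟩
  rw [heq (N * 2 * 2), heq (N * 2)]
  have hD : ∀ q ∈ D, q.Prime := fun q hq => (Finset.mem_filter.mp hq).2
  have hDL : ∀ q : ℕ, q.Prime → q ∣ N * 2 * 2 → q ∈ D := fun q hq h => (hDS q hq).mpr (hNS q hq h)
  refine SMO.finrank_eigHKP_two_le K D hD (N * 2) hDL (dvd_mul_left 2 N) a ?_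
  intro M hM h4M hmin
  have hDM : ∀ q : ℕ, q.Prime → q ∣ M → q ∈ D := fun q hq h => hDL q hq (h.trans hM)
  have hMS : ∀ q : ℕ, q.Prime → q ∣ M → q ∈ S := fun q hq h => hNS q hq (h.trans hM)
  obtain ⟨hM0, E₀, σ, g, hg, hrel⟩ := SMO.exists_isNewform_of_isMinLevelK K D hDM hmin
  haveI := hM0
  -- the eigencharacter of `g`
  let chig : CuspForm.heckeAlgebra M 2 (↑S : Set ℕ) →+* ℂ := Fermat.Agent.S58lib.Mod.chiOf hg.1 ↑S
  have hchig : ∀ (ℓ : ℕ) (hℓ : ℓ.Prime) (hℓM : ¬ ℓ ∣ M) (hℓS : ℓ ∉ (↑S : Set ℕ)),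
      chig (CuspForm.heckeAlgebra.T hℓ hℓM hℓS) = ModularFormClass.qCoeff g ℓ :=
    fun ℓ hℓ hℓM hℓS => Fermat.Agent.S58lib.Mod.chiOf_T hg.1 ↑S ℓ hℓ hℓM hℓS
  have hnd : ∀ ℓ : ℕ, ℓ.Prime → ℓ ∉ (↑S : Set ℕ) → ¬ ℓ ∣ N * 2 * 2 :=
    fun ℓ hℓ hℓS h => hℓS (Finset.mem_coe.mpr (hNS ℓ hℓ h))
  have hgen : ∀ (ℓ : ℕ) (hℓ : ℓ.Prime) (hℓM : ¬ ℓ ∣ M) (hℓS : ℓ ∉ (↑S : Set ℕ)),
      ∃ x : ↥E₀, (x : K) = algebraMap 𝒪 K (χ (H.π (CuspForm.heckeAlgebra.T hℓ (hnd ℓ hℓ hℓS) hℓS))) ∧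
        σ x = chig (CuspForm.heckeAlgebra.T hℓ hℓM hℓS) := by
    intro ℓ hℓ hℓM hℓS
    obtain ⟨x, hx1, hx2⟩ := hrel ℓ hℓ (fun h => hℓS (Finset.mem_coe.mpr ((hDS ℓ hℓ).mp h)))
    exact ⟨x, by rw [hx1, ha ℓ hℓ (hnd ℓ hℓ hℓS) hℓS], by rw [hx2, hchig]⟩
  obtain ⟨iota, hiota⟩ := exists_iota hinjK chig E₀ σ
    (exists_mem_of_heckeT S hMS chig E₀ σ _ (fun ℓ hℓ hℓM hℓS => by
      obtain ⟨x, hx1, hx2⟩ := hgen ℓ hℓ hℓM hℓS
      exact ⟨x, ⟨_, hx1.symm⟩, hx2⟩))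
  have hiota' : ∀ (ℓ : ℕ) (hℓ : ℓ.Prime) (hℓM : ¬ ℓ ∣ M) (hℓS : ℓ ∉ (↑S : Set ℕ)),
      (iota.comp chig.rangeRestrict) (CuspForm.heckeAlgebra.T hℓ hℓM hℓS) =
        χ (H.π (CuspForm.heckeAlgebra.T hℓ (hnd ℓ hℓ hℓS) hℓS)) := by
    intro ℓ hℓ hℓM hℓS
    obtain ⟨x, hx1, hx2⟩ := hgen ℓ hℓ hℓM hℓS
    exact hiota _ x _ hx1 hx2
  have h3' : ((3 : ℕ) : 𝒪) ∈ maximalIdeal 𝒪 := by exact_mod_cast h3
  -- S36
  obtain ⟨O'', _, _, _, _, _, _, _, _, _, hinj'', ρ₂, hρ₂, hnu⟩ :=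
    Fermat.Agent.S36lib.s36_of_inertiaKill 3 M hg.1
      (Fermat.Agent.S36lib.J.inertiaKillTors_all Nat.prime_three hg) S h3S hMS 𝒪 h3' chig hchig iota
      (by
        -- the hypothesis `hres` of S36
        intro O'' _ _ _ _ _ _ _ _ _ hinj ρ hρ
        exact residual_absIrr_of_frob h3 hNS H χ ρ (fun ℓ hℓ hℓL hℓS A hA φ hφ => by
          have hℓM : ¬ ℓ ∣ M := fun h => hℓL (h.trans hM)
          have hℓ3 : ℓ ≠ 3 := by
            rintro rfl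
            exact hℓS (Finset.mem_coe.mpr h3S)
          rw [hρ ℓ hℓ hℓ3 hℓM hℓS A hA φ hφ, hiota' ℓ hℓ hℓM hℓS]))
  · -- the contradiction: `ρ₂` is unipotent on inertia at `2`
    have hM0' : M ≠ 0 := NeZero.ne M
    have hfac : M.factorization 2 = 2 := by
      have h4' : (2 : ℕ) ^ 2 ∣ M := by norm_num; exact h4M
      have hge : 2 ≤ M.factorization 2 :=
        (Nat.Prime.pow_dvd_iff_le_factorization Nat.prime_two hM0').mp h4'
      have hlt : ¬ 3 ≤ M.factorization 2 := by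
        intro h
        have h8 : (2 : ℕ) ^ 3 ∣ M := (Nat.Prime.pow_dvd_iff_le_factorization Nat.prime_two hM0').mpr h
        obtain ⟨c, hc⟩ := h8.trans hM
        obtain ⟨k, hk⟩ := hN
        omega
      omega
    refine hnu 2 Nat.prime_two (by norm_num) hfac ?_
    intro P hP τ hτ
    have hcmp := charpoly_eq_map_of_frob (L := N * 2 * 2) hNS H χ ρ₂
      (fun ℓ hℓ hℓL hℓS A hA φ hφ => by
        have hℓM : ¬ ℓ ∣ M := fun h => hℓL (h.trans hM)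
        rw [hρ₂ ℓ hℓ hℓM hℓS A hA φ hφ, hiota' ℓ hℓ hℓM hℓS]) τ
    rw [hcmp, ← Polynomial.map_map, hunip P hP τ hτ, Fermat.Agent.S58lib.Cmp.map_X_sub_one_sq]

/-- **Block U with a free level** `L = N * 2 * 2` (e.g. `L = N * 4`). -/
theorem finrank_le_of_unipotent_of_eq {𝒪 : Type} [CommRing 𝒪] [IsDomain 𝒪] [IsDiscreteValuationRing 𝒪]
    [IsAdicComplete (maximalIdeal 𝒪) 𝒪] [CharZero 𝒪] [Finite (ResidueField 𝒪)]
    (h3 : (3 : 𝒪) ∈ maximalIdeal 𝒪) {N : ℕ} [NeZero N] (hN : Odd N) {L : ℕ} [NeZero L]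
    (hL : L = N * 2 * 2) (S : Finset ℕ) (h3S : 3 ∈ S)
    (hNS : ∀ q : ℕ, q.Prime → q ∣ L → q ∈ S)
    {θ : CuspForm.heckeAlgebra L 2 (↑S : Set ℕ) →+* ResidueField 𝒪}
    {T : Type} [CommRing T] [IsLocalRing T] [IsNoetherianRing T]
    [IsAdicComplete (maximalIdeal T) T] [Algebra 𝒪 T] [IsLocalHom (algebraMap 𝒪 T)]
    [Module.Finite 𝒪 T] [Module.Free 𝒪 T]
    (H : CuspForm.HeckeGaloisRepDatum L (↑S : Set ℕ) 𝒪 θ T) (χ : T →ₐ[𝒪] 𝒪)
    (hunip : ∀ P : ValuationSubring Qb, P.LiesOverPrime 2 → ∀ σ ∈ P.inertiaSubgroupIn ℚ,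
      (LinearMap.charpoly (H.ρ.ρ σ)).map (χ : T →+* 𝒪) = (X - 1) ^ 2)
    (K : Type*) [Field K] [Algebra 𝒪 K] [IsFractionRing 𝒪 K] (a : ℕ → K)
    (ha : ∀ (ℓ : ℕ) (hℓ : ℓ.Prime) (hℓL : ¬ ℓ ∣ L) (hℓS : ℓ ∉ (↑S : Set ℕ)),
      a ℓ = algebraMap 𝒪 K (χ (H.π (CuspForm.heckeAlgebra.T hℓ hℓL hℓS)))) :
    finrank K ↥(SMO.eigHKP L K (fun ℓ => ℓ ∈ S) a) ≤
      2 * finrank K ↥(SMO.eigHKP (N * 2) K (fun ℓ => ℓ ∈ S) a) := by
  subst hL
  exact finrank_le_of_unipotent h3 hN S h3S hNS H χ H.residual_absIrr hunip K a ha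

end Fermat.Agent.S59lib.R7b.ALD
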