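/-
S59lib / R7b / ALD / TraceA  (helper1) — Project I, item R7b.

**`tr n = -3` on `A = F(𝒪(sgn))`** (the binder `htrA` of `subsingleton_of_assembly`).

`β₄ : 𝕋(4N)_𝔪 → E_Y` (`exists_beta_four`), `A = H¹(Γ₀(N), 𝒪(sgn))_𝔪` a module over `E_Y` (`hAY`).  If `u = tr n + 3` does not
kill `A`, point extraction (`exists_point_of_ne_zero`) gives an `𝒪`-point `χ` of `𝕋(4N)_𝔪` and an eigenvector
`v = u b ≠ 0` in `A`.  As `tr n · (tr n + 3) = 0` (helper4's `G1.trace_globGen_two_mul`), `χ (tr n) = 0`, so `χ` is unipotent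
on inertia at `2` (helper9's `charpoly_map_of_trace_tameN_eq_zero`), whence Block U: `dim H_par(4N)[a] ≤ 2 dim H_par(2N)[a]`.
The system `a` does not occur at level `N` (`hZ`, (BC↑)), so by the count (B3) it does not occur in
`H¹(Γ₀(N), K(sgn))`; but `v` gives such a class (BC↓).  Contradiction.
-/
import Mathlib
import Fermat.Agent.S59lib.R7b.TraceX
import Fermat.Agent.S59lib.R7b.Point
import Fermat.Agent.S59lib.R7b.PointRes
import Fermat.Agent.S59lib.R7b.BettiK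
import Fermat.Agent.S59lib.R7b.BaseChange
import Fermat.Agent.S59lib.R7b.Devissage
import Fermat.Agent.S59lib.R7b.ALD.Unip
import Fermat.Agent.S43lib.B1.LevelFree

set_option autoImplicit false
set_option linter.unusedSectionVars false
set_option linter.unusedVariables false
set_option linter.style.haveILetI false

noncomputable section

namespace Fermat.Agent.S59lib.R7b

open CongruenceSubgroup CuspForm IsLocalRing MvPolynomial
open Fermat.Agent.S43lib.B1 Fermat.Agent.S43lib.B2 Fermat.Agent.S43lib.B2.Bridge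
open Fermat.Agent.S59lib.S3Proj
open Fermat.Agent.TeamA.Rep ExtCitation Fermat.Agent.S43lib.B3
open scoped MatrixGroups

local notation "𝟙" => (1 : G2 →* ℤˣ)

/-! ### the action of the Hecke ring on a module killed by the annihilator -/

section act

variable {R : Type*} [CommRing R] {P : Type*} [CommRing P] [Algebra R P] (𝔪 : Ideal P) [𝔪.IsPrime]
variable (Y : Type*) [AddCommGroup Y] [Module (Localization.AtPrime 𝔪) Y]
variable (A : Type*) [AddCommGroup A] [Module R A] [Module (Localization.AtPrime 𝔪) A]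
  [IsScalarTower R (Localization.AtPrime 𝔪) A]

/-- the action of the Hecke ring of `Y` on a module killed by the annihilator of `Y` -/
def hact (h : ∀ r : Localization.AtPrime 𝔪, (∀ y : Y, r • y = 0) → ∀ m : A, r • m = 0) :
    HRing 𝔪 Y →ₐ[R] Module.End R A :=
  Ideal.Quotient.liftₐ (Module.annihilator (Localization.AtPrime 𝔪) Y)
    (Algebra.lsmul R R A) (fun r hr => LinearMap.ext fun m => h r (Module.mem_annihilator.mp hr) m)

theorem hact_hmk (h : ∀ r : Localization.AtPrime 𝔪, (∀ y : Y, r • y = 0) → ∀ m : A, r • m = 0)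
    (r : Localization.AtPrime 𝔪) (m : A) : hact (R := R) 𝔪 Y A h (hmk 𝔪 Y r) m = r • m := rfl

end act

/-! ### the quadratic relation of `tr n` at `v = 2`, `p = 3` -/

section tame

variable {A : Type} [CommRing A] [IsLocalRing A] [IsHausdorff (maximalIdeal A) A]

/-- `tr n · (tr n + 3) = 0` for `n = ρ(τ₂) - 1` -/
theorem trace_tameN_two_mul (hpA : ((3 : ℕ) : A) ∈ maximalIdeal A) (ρ : GaloisRepAdic A)
    (b : Module.Basis (Fin 2) A ρ.V) (hdet : ρ.DetIsCyclotomic 3)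
    (hur : ρ.residual.IsUnramifiedAt 2) :
    (tameN ρ b ⟨2, Nat.prime_two⟩ 3).trace * ((tameN ρ b ⟨2, Nat.prime_two⟩ 3).trace + 3) = 0 := by
  haveI : Fact (Nat.Prime 3) := ⟨Nat.prime_three⟩
  have h1 := G1.trace_globGen_two_mul 3 hpA ρ b ⟨2, Nat.prime_two⟩ (by decide) rfl hdet hur
  have h2 : (tameN ρ b ⟨2, Nat.prime_two⟩ 3).trace =
      (matOf ρ b (globGenAt ⟨2, Nat.prime_two⟩ 3)).trace - 2 := by
    unfold tameN
    rw [Matrix.trace_sub, Matrix.trace_one, Fintype.card_fin]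
    rfl
  rw [h2]
  linear_combination h1

end tame

section main

variable {𝒪 : Type} [CommRing 𝒪] [IsDomain 𝒪] [IsDiscreteValuationRing 𝒪]
  [IsAdicComplete (maximalIdeal 𝒪) 𝒪] [CharZero 𝒪] [Finite (ResidueField 𝒪)]
variable {N : ℕ} [NeZero N] (hN : Odd N) {S : Finset ℕ} (t : ℕ → ResidueField 𝒪)

/-- **`htrA`**: `β₄ (tr n + 3)` acts as `0` on `A = F(𝒪(sgn))`. -/
theorem smul_eq_zero_of_trace_tameN_add_three
    [Nontrivial ((sys2 3 hN).F 𝒪 (FunTw 𝟙 G2 𝒪) (RingHom.ker (ev2 3 (M := N) t)))]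
    [Fact (HasIntegralStructure (N * 4) 2)]
    (h3 : (3 : 𝒪) ∈ maximalIdeal 𝒪)
    (hS : ∀ ℓ : ℕ, ℓ.Prime → (ℓ ∉ S ↔ ¬ ℓ ∣ N * 2 ∧ ℓ ≠ 3)) (h3S : 3 ∈ (↑S : Set ℕ))
    (θ₄ : heckeAlgebra (N * 4) 2 (↑S : Set ℕ) →+* ResidueField 𝒪)
    (hθ₄ : ∀ ℓ : GoodPrime (N * 4) (↑S : Set ℕ),
      θ₄ (heckeAlgebra.T ℓ.2.1 ℓ.2.2.1 ℓ.2.2.2) = t ℓ.1)
    (hR : ∀ (D : Type) [CommRing D] [IsDomain D] [Algebra 𝒪 D],
      Function.Injective (algebraMap 𝒪 D) →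
        ∀ (f : heckeAlgebra (N * 4) 2 (↑S : Set ℕ) →+* D) x, f x ∈ (algebraMap 𝒪 D).range)
    (β₄ : heckeLocal (N * 4) (↑S : Set ℕ) 𝒪 θ₄ →ₐ[𝒪] EW hN (FunTw 𝟙 G2 𝒪) t)
    (hβ₄ : ∀ ℓ : GoodPrime (N * 4) (↑S : Set ℕ),
      β₄ (heckeLocal.π _ _ 𝒪 θ₄ (heckeAlgebra.T ℓ.2.1 ℓ.2.2.1 ℓ.2.2.2)) =
        polyW hN (FunTw 𝟙 G2 𝒪) t (X (goodToI2 h3S ℓ)))
    (hAY : ∀ r : Localization.AtPrime (RingHom.ker (ev2 3 (M := N) t)),
      (∀ y : (sys2 3 hN).F 𝒪 (FunTw 𝟙 G2 𝒪) (RingHom.ker (ev2 3 (M := N) t)), r • y = 0) →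
      ∀ x : (sys2 3 hN).F 𝒪 (TwMod (permSign G2 X2) 𝒪) (RingHom.ker (ev2 3 (M := N) t)), r • x = 0)
    (H₄ : HeckeGaloisRepDatum (N * 4) (↑S : Set ℕ) 𝒪 θ₄ (heckeLocal (N * 4) (↑S : Set ℕ) 𝒪 θ₄))
    (hH₄ : H₄.π = heckeLocal.π (N * 4) (↑S : Set ℕ) 𝒪 θ₄)
    (b : Module.Basis (Fin 2) (heckeLocal (N * 4) (↑S : Set ℕ) 𝒪 θ₄) H₄.ρ.V)
    (hdet : H₄.ρ.DetIsCyclotomic 3) (hur : H₄.ρ.residual.IsUnramifiedAt 2)
    (hZ : Subsingleton ((sys2 3 hN).F 𝒪 (TwMod 𝟙 𝒪) (RingHom.ker (ev2 3 (M := N) t))))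
    (i₀ : I2 3 N) (h₀ : t i₀.1 ≠ ((i₀.1 + 1 : ℕ) : ResidueField 𝒪))
    (h₀L : ((N * 4 : ℕ) : ℤ) ∣ (i₀.1 : ℤ) - 1)
    (r : Localization.AtPrime (RingHom.ker (ev2 3 (M := N) t)))
    (hr : hmk _ ((sys2 3 hN).F 𝒪 (FunTw 𝟙 G2 𝒪) (RingHom.ker (ev2 3 (M := N) t))) r =
      β₄ ((tameN H₄.ρ b ⟨2, Nat.prime_two⟩ 3).trace + 3))
    (x : (sys2 3 hN).F 𝒪 (TwMod (permSign G2 X2) 𝒪) (RingHom.ker (ev2 3 (M := N) t))) :
    r • x = 0 := by
  classical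
  by_contra hx
  haveI : Fact (Nat.Prime 3) := ⟨Nat.prime_three⟩
  haveI hH : IsHausdorff (maximalIdeal (heckeLocal (N * 4) (↑S : Set ℕ) 𝒪 θ₄))
      (heckeLocal (N * 4) (↑S : Set ℕ) 𝒪 θ₄) :=
    (heckeLocal.instIsAdicComplete (N * 4) (↑S : Set ℕ) 𝒪 θ₄).toIsHausdorff
  haveI hH' : IsHausdorff (maximalIdeal 𝒪) 𝒪 := IsAdicComplete.toIsHausdorff
  -- the maximal ideal is not Eisenstein
  have hne' : (sys2 3 hN).NonEis (RingHom.ker (ev2 3 (M := N) (𝒪 := 𝒪) t)) := by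
    refine ⟨i₀, ?_⟩
    rw [RingHom.mem_ker, map_sub, ev2_X, ev2_C, map_natCast]
    have hcard : Fintype.card ((sys2 3 hN).ι i₀) = i₀.1 + 1 := by
      haveI : NeZero i₀.1 := ⟨i₀.2.1.ne_zero⟩
      rw [Fintype.card_eq_nat_card]
      show Nat.card (OnePoint (ZMod i₀.1)) = i₀.1 + 1
      rw [show OnePoint (ZMod i₀.1) = Option (ZMod i₀.1) from rfl, Finite.card_option,
        Nat.card_zmod]
    rw [hcard]
    exact sub_ne_zero.mpr h₀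
  -- `A` is torsion free
  have htf : ∀ c : 𝒪, c ≠ 0 →
      ∀ y : (sys2 3 hN).F 𝒪 (TwMod (permSign G2 X2) 𝒪) (RingHom.ker (ev2 3 (M := N) t)),
        c • y = 0 → y = 0 := by
    intro c hc y hy
    refine smul_eq_zero_of_nonEis (sys2 3 hN) _ hne' c (fun w hw => ?_) y hy
    have h1 : c * TwMod.out w = 0 := hw
    rcases mul_eq_zero.mp h1 with h | h
    · exact absurd h hc
    · exact h
  -- the action of the Hecke algebra of level `4 N` on `A`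
  set φ : heckeLocal (N * 4) (↑S : Set ℕ) 𝒪 θ₄ →ₐ[𝒪]
      Module.End 𝒪 ((sys2 3 hN).F 𝒪 (TwMod (permSign G2 X2) 𝒪) (RingHom.ker (ev2 3 (M := N) t))) :=
    (hact (R := 𝒪) (RingHom.ker (ev2 3 (M := N) t))
      ((sys2 3 hN).F 𝒪 (FunTw 𝟙 G2 𝒪) (RingHom.ker (ev2 3 (M := N) t)))
      ((sys2 3 hN).F 𝒪 (TwMod (permSign G2 X2) 𝒪) (RingHom.ker (ev2 3 (M := N) t))) hAY).comp β₄
    with hφ
  have hφr : ∀ (z : heckeLocal (N * 4) (↑S : Set ℕ) 𝒪 θ₄)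
      (r' : Localization.AtPrime (RingHom.ker (ev2 3 (M := N) t))),
      hmk _ ((sys2 3 hN).F 𝒪 (FunTw 𝟙 G2 𝒪) (RingHom.ker (ev2 3 (M := N) t))) r' = β₄ z →
      ∀ y, φ z y = r' • y := by
    intro z r' h y
    rw [hφ, AlgHom.comp_apply, ← h]
    rfl
  set s := (tameN H₄.ρ b ⟨2, Nat.prime_two⟩ 3).trace with hs
  have hux : φ (s + 3) x ≠ 0 := by
    rw [hφr (s + 3) r hr x]
    exact hx
  -- point extraction
  obtain ⟨χ, b', hv, heig⟩ := exists_point_of_ne_zero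
    (heckeLocal_hrat (↑S : Set ℕ) 𝒪 θ₄ hR) htf φ (s + 3) x hux
  set v := φ (s + 3) b' with hvdef
  -- `χ (tr n) = 0`
  have hpA : ((3 : ℕ) : heckeLocal (N * 4) (↑S : Set ℕ) 𝒪 θ₄) ∈
      maximalIdeal (heckeLocal (N * 4) (↑S : Set ℕ) 𝒪 θ₄) := by
    have h1 : ((3 : ℕ) : heckeLocal (N * 4) (↑S : Set ℕ) 𝒪 θ₄) =
        algebraMap 𝒪 (heckeLocal (N * 4) (↑S : Set ℕ) 𝒪 θ₄) (3 : 𝒪) := by
      rw [map_ofNat]
      rfl
    rw [h1]
    exact map_nonunit (algebraMap 𝒪 (heckeLocal (N * 4) (↑S : Set ℕ) 𝒪 θ₄)) _ h3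
  have hsu : s * (s + 3) = 0 := trace_tameN_two_mul hpA H₄.ρ b hdet hur
  have hχs : χ s = 0 := by
    have h1 : φ s v = 0 := by
      rw [hvdef, ← Module.End.mul_apply, ← map_mul, hsu, map_zero, LinearMap.zero_apply]
    rw [heig s] at h1
    by_contra h
    exact hv (htf _ h _ h1)
  -- `χ` is unipotent on inertia at `2`
  haveI : IsLocalHom (χ : heckeLocal (N * 4) (↑S : Set ℕ) 𝒪 θ₄ →+* 𝒪) := ALD.isLocalHom_algHom_aug χ
  have hunip := charpoly_map_of_trace_tameN_eq_zero 3 hpA H₄.ρ hdet b ⟨2, Nat.prime_two⟩ (by decide)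
    hur (χ : heckeLocal (N * 4) (↑S : Set ℕ) 𝒪 θ₄ →+* 𝒪) hχs
  -- the system of eigenvalues
  have hSI : ∀ i : I2 3 N, i.1 ∉ (↑S : Set ℕ) := fun i => by
    rw [Finset.mem_coe]
    exact (hS i.1 i.2.1).mpr ⟨i.2.2.1, i.2.2.2⟩
  set a₀ : I2 3 N → 𝒪 := fun i =>
    χ (heckeLocal.π (N * 4) (↑S : Set ℕ) 𝒪 θ₄ (heckeAlgebra.T i.2.1 i.not_dvd_four (hSI i))) with ha₀
  set a' : ℕ → FractionRing 𝒪 := fun ℓ =>
    if h : ℓ.Prime ∧ ¬ ℓ ∣ N * 4 ∧ ℓ ∉ (↑S : Set ℕ) then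
      algebraMap 𝒪 (FractionRing 𝒪) (χ (H₄.π (heckeAlgebra.T h.1 h.2.1 h.2.2))) else 0 with ha'
  have ha'i : ∀ i : I2 3 N, a' i.1 = algebraMap 𝒪 (FractionRing 𝒪) (a₀ i) := by
    intro i
    show (if h : i.1.Prime ∧ ¬ i.1 ∣ N * 4 ∧ i.1 ∉ (↑S : Set ℕ) then
      algebraMap 𝒪 (FractionRing 𝒪) (χ (H₄.π (heckeAlgebra.T h.1 h.2.1 h.2.2))) else 0) = _
    rw [dif_pos ⟨i.2.1, i.not_dvd_four, hSI i⟩, hH₄]
  -- Block U
  have hNS : ∀ q : ℕ, q.Prime → q ∣ N * 4 → q ∈ S := by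
    intro q hq hq4
    by_contra hqS
    apply ((hS q hq).mp hqS).1
    rcases (Nat.Prime.dvd_mul hq).mp hq4 with h | h
    · exact h.mul_right 2
    · have h4 : q ∣ 2 ^ 2 := by
        norm_num
        exact h
      exact (hq.dvd_of_dvd_pow h4).mul_left N
  have hW1 := ALD.finrank_le_of_unipotent_of_eq h3 hN (show N * 4 = N * 2 * 2 by ring) S
    (Finset.mem_coe.mp h3S) hNS H₄ χ hunip (FractionRing 𝒪) a'
    (fun ℓ hℓ hℓL hℓS => by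
      show (if h : ℓ.Prime ∧ ¬ ℓ ∣ N * 4 ∧ ℓ ∉ (↑S : Set ℕ) then
        algebraMap 𝒪 (FractionRing 𝒪) (χ (H₄.π (heckeAlgebra.T h.1 h.2.1 h.2.2))) else 0) = _
      rw [dif_pos ⟨hℓ, hℓL, hℓS⟩])
  -- the system does not occur at level `N`
  have h₀' : a' i₀.1 ≠ (i₀.1 : FractionRing 𝒪) + 1 := by
    rw [ha'i i₀]
    intro h
    apply h₀
    have h1 : a₀ i₀ = ((i₀.1 + 1 : ℕ) : 𝒪) := by
      apply IsFractionRing.injective 𝒪 (FractionRing 𝒪)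
      rw [h, map_natCast, Nat.cast_add, Nat.cast_one]
    have h2 := residue_point θ₄ χ (heckeAlgebra.T i₀.2.1 i₀.not_dvd_four (hSI i₀))
    rw [hθ₄ ⟨i₀.1, i₀.2.1, i₀.not_dvd_four, hSI i₀⟩] at h2
    rw [← h2]
    show residue 𝒪 (a₀ i₀) = _
    rw [h1, map_natCast]
  have hE1 : eigC (sys2 3 hN) (FractionRing 𝒪) (TwMod 𝟙 (FractionRing 𝒪)) (fun i => a' i.1) = ⊥ := by
    rw [eq_bot_iff]
    intro x₁ hx₁
    rw [Submodule.mem_bot]
    by_contra hx₁0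
    rw [mem_eigC] at hx₁
    haveI hnt := nontrivial_F_of_eigenclass' (sys2 3 hN) 𝟙 (FractionRing 𝒪)
      (RingHom.ker (ev2 3 (M := N) t)) a₀ (mem_ker_ev2_iff_point hSI θ₄ t hθ₄ χ) x₁ hx₁0
      (fun i => by rw [hx₁ i, ha'i i])
    exact not_subsingleton _ hZ
  -- the count
  have hEs := eigC_sgn_eq_bot hN (FractionRing 𝒪) S hS a' i₀ h₀' h₀L hE1 (by
    rw [← finrank_eigHKP_congr (show N * 4 = N * 2 * 2 by ring)]
    exact hW1)
  -- the eigenvector gives a class over `K`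
  have hab : ∀ i : I2 3 N, (X i : MvPolynomial (I2 3 N) 𝒪) • v = a₀ i • v := by
    intro i
    have h1 := hβ₄ ⟨i.1, i.2.1, i.not_dvd_four, hSI i⟩
    have h2 : goodToI2 h3S (⟨i.1, i.2.1, i.not_dvd_four, hSI i⟩ : GoodPrime (N * 4) (↑S : Set ℕ)) = i :=
      rfl
    rw [h2] at h1
    have h4 := hφr _ (algebraMap _ _ (X i)) h1.symm v
    rw [algebraMap_smul] at h4
    rw [← h4, heig]
  obtain ⟨x₂, hx₂, hTx₂⟩ := exists_eigenclass_of_loc (sys2 3 hN) (permSign G2 X2) (FractionRing 𝒪)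
    (RingHom.ker (ev2 3 (M := N) t)) a₀ v (fun c hc h => hv (htf c hc v h)) hab
  have hmem : x₂ ∈ eigC (sys2 3 hN) (FractionRing 𝒪) (TwMod (permSign G2 X2) (FractionRing 𝒪))
      (fun i => a' i.1) := by
    rw [mem_eigC]
    intro i
    rw [hTx₂ i, ha'i i]
  rw [hEs, Submodule.mem_bot] at hmem
  exact hx₂ hmem

end main

end Fermat.Agent.S59lib.R7b
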